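import Mathlib

/-!
# E-side flatness, part 3: the calculus of approximable functions

`A` a valuation subring of a field `K`, `ϖ ∈ 𝔪_A`, `ev : ι → σ → K` a family of points with
coordinates in `A`.  A function `φ : ι → K` is *approximable* (`EcflatAppr`) if for every `n`
there is a polynomial `F` with coefficients in `A` such that `φ t ≡ F (ev t)` modulo `ϖ ^ n A`
for all `t`.  Approximable functions form a ring, and `1 / (1 - φ)` is approximable when `φ`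
is approximable with values in `ϖ A` (`EcflatAppr0`).
-/

set_option autoImplicit false

namespace Fermat.Agent.EC

variable {K : Type*} [Field K] (A : ValuationSubring K) (ϖ : K) {ι σ : Type*}
  (ev : ι → σ → K)

/-- `φ` is approximable modulo all powers of `ϖ` by polynomials over `A` in the coordinates. -/
def EcflatAppr (φ : ι → K) : Prop :=
  ∀ n : ℕ, ∃ F : MvPolynomial σ A, ∀ t, ∃ a ∈ A,
    φ t - MvPolynomial.eval₂ A.subtype (ev t) F = ϖ ^ n * a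

/-- approximable, with values in `ϖ A` -/
def EcflatAppr0 (φ : ι → K) : Prop :=
  EcflatAppr A ϖ ev φ ∧ ∀ t, ∃ a ∈ A, φ t = ϖ * a

variable {A ϖ ev}

theorem ecflat_mul_mem_nonunits {s a : K} (hs : s ∈ A.nonunits) (ha : a ∈ A) :
    s * a ∈ A.nonunits := by
  rw [ValuationSubring.mem_nonunits_iff] at hs ⊢
  rw [mul_comm, map_mul]
  exact Right.mul_lt_one_of_le_of_lt ((A.valuation_le_one_iff a).2 ha) hs

theorem ecflat_eval₂_mem (hev : ∀ t i, ev t i ∈ A) (F : MvPolynomial σ A) (t : ι) :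
    MvPolynomial.eval₂ A.subtype (ev t) F ∈ A := by
  induction F using MvPolynomial.induction_on with
  | C a => rw [MvPolynomial.eval₂_C]; exact a.2
  | add p q hp hq => rw [MvPolynomial.eval₂_add]; exact add_mem hp hq
  | mul_X p i hp => rw [MvPolynomial.eval₂_mul, MvPolynomial.eval₂_X]; exact mul_mem hp (hev t i)

theorem EcflatAppr.mem (hev : ∀ t i, ev t i ∈ A) {φ : ι → K} (h : EcflatAppr A ϖ ev φ) (t : ι) :
    φ t ∈ A := by
  obtain ⟨F, hF⟩ := h 0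
  obtain ⟨a, ha, e⟩ := hF t
  have : φ t = MvPolynomial.eval₂ A.subtype (ev t) F + a := by
    rw [pow_zero, one_mul] at e
    linear_combination e
  rw [this]
  exact add_mem (ecflat_eval₂_mem hev F t) ha

theorem ecflatAppr_const (c : K) (hc : c ∈ A) : EcflatAppr A ϖ ev (fun _ => c) := by
  intro n
  refine ⟨MvPolynomial.C ⟨c, hc⟩, fun t => ⟨0, A.zero_mem, ?_⟩⟩
  rw [MvPolynomial.eval₂_C]
  simp

theorem ecflatAppr_var (i : σ) : EcflatAppr A ϖ ev (fun t => ev t i) := by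
  intro n
  refine ⟨MvPolynomial.X i, fun t => ⟨0, A.zero_mem, ?_⟩⟩
  rw [MvPolynomial.eval₂_X]
  simp

theorem EcflatAppr.add {φ ψ : ι → K} (hφ : EcflatAppr A ϖ ev φ) (hψ : EcflatAppr A ϖ ev ψ) :
    EcflatAppr A ϖ ev (fun t => φ t + ψ t) := by
  intro n
  obtain ⟨F, hF⟩ := hφ n
  obtain ⟨G, hG⟩ := hψ n
  refine ⟨F + G, fun t => ?_⟩
  obtain ⟨a, ha, ea⟩ := hF t
  obtain ⟨b, hb, eb⟩ := hG t
  refine ⟨a + b, add_mem ha hb, ?_⟩
  rw [MvPolynomial.eval₂_add]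
  linear_combination ea + eb

theorem EcflatAppr.neg {φ : ι → K} (hφ : EcflatAppr A ϖ ev φ) :
    EcflatAppr A ϖ ev (fun t => -φ t) := by
  intro n
  obtain ⟨F, hF⟩ := hφ n
  refine ⟨-F, fun t => ?_⟩
  obtain ⟨a, ha, ea⟩ := hF t
  refine ⟨-a, neg_mem ha, ?_⟩
  rw [MvPolynomial.eval₂_neg]
  linear_combination -ea

theorem EcflatAppr.sub {φ ψ : ι → K} (hφ : EcflatAppr A ϖ ev φ) (hψ : EcflatAppr A ϖ ev ψ) :
    EcflatAppr A ϖ ev (fun t => φ t - ψ t) := by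
  have := hφ.add hψ.neg
  refine fun n => ?_
  obtain ⟨F, hF⟩ := this n
  exact ⟨F, fun t => by simpa [sub_eq_add_neg] using hF t⟩

theorem EcflatAppr.mul (hev : ∀ t i, ev t i ∈ A) {φ ψ : ι → K} (hφ : EcflatAppr A ϖ ev φ)
    (hψ : EcflatAppr A ϖ ev ψ) : EcflatAppr A ϖ ev (fun t => φ t * ψ t) := by
  intro n
  obtain ⟨F, hF⟩ := hφ n
  obtain ⟨G, hG⟩ := hψ n
  refine ⟨F * G, fun t => ?_⟩
  obtain ⟨a, ha, ea⟩ := hF t
  obtain ⟨b, hb, eb⟩ := hG t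
  refine ⟨a * ψ t + MvPolynomial.eval₂ A.subtype (ev t) F * b,
    add_mem (mul_mem ha (hψ.mem hev t)) (mul_mem (ecflat_eval₂_mem hev F t) hb), ?_⟩
  rw [MvPolynomial.eval₂_mul]
  linear_combination ψ t * ea + MvPolynomial.eval₂ A.subtype (ev t) F * eb

theorem EcflatAppr.pow (hev : ∀ t i, ev t i ∈ A) {φ : ι → K} (hφ : EcflatAppr A ϖ ev φ)
    (k : ℕ) : EcflatAppr A ϖ ev (fun t => φ t ^ k) := by
  induction k with
  | zero => simpa using ecflatAppr_const (A := A) (ϖ := ϖ) (ev := ev) 1 A.one_mem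
  | succ k ih =>
    have := ih.mul hev hφ
    refine fun n => ?_
    obtain ⟨F, hF⟩ := this n
    exact ⟨F, fun t => by simpa [pow_succ] using hF t⟩

theorem EcflatAppr.congr {φ ψ : ι → K} (hφ : EcflatAppr A ϖ ev φ) (h : ∀ t, ψ t = φ t) :
    EcflatAppr A ϖ ev ψ := by
  have : ψ = φ := funext h
  rw [this]; exact hφ

/-- finite geometric sums are approximable -/
theorem EcflatAppr.geomSum (hev : ∀ t i, ev t i ∈ A) {φ : ι → K} (hφ : EcflatAppr A ϖ ev φ)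
    (k : ℕ) : EcflatAppr A ϖ ev (fun t => ∑ j ∈ Finset.range k, φ t ^ j) := by
  induction k with
  | zero => simpa using ecflatAppr_const (A := A) (ϖ := ϖ) (ev := ev) 0 A.zero_mem
  | succ k ih =>
    have := ih.add (hφ.pow hev k)
    exact this.congr fun t => by rw [Finset.sum_range_succ]

/-- `1 / (1 - φ)` is approximable when `φ` is approximable with values in `ϖ A`. -/
theorem EcflatAppr0.inv_one_sub (hev : ∀ t i, ev t i ∈ A) (hϖ : ϖ ∈ A.nonunits) {φ : ι → K}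
    (hφ : EcflatAppr0 A ϖ ev φ) : EcflatAppr A ϖ ev (fun t => (1 - φ t)⁻¹) := by
  intro n
  obtain ⟨F, hF⟩ := hφ.1.geomSum hev n n
  refine ⟨F, fun t => ?_⟩
  obtain ⟨a, ha, ea⟩ := hF t
  obtain ⟨b, hb, eb⟩ := hφ.2 t
  -- `1 - φ t` is a unit
  have hφm : φ t ∈ A.nonunits := by
    rw [eb]
    exact ecflat_mul_mem_nonunits hϖ hb
  have hv : A.valuation (1 - φ t) = 1 := by
    have := Valuation.map_one_add_of_lt A.valuation
      (show A.valuation (-φ t) < 1 by rw [Valuation.map_neg]; exact A.mem_nonunits_iff.1 hφm)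
    rwa [← sub_eq_add_neg] at this
  have hne : 1 - φ t ≠ 0 := by
    intro h0
    rw [h0, map_zero] at hv
    exact zero_ne_one hv
  have hinv : (1 - φ t)⁻¹ ∈ A := by
    rw [← A.valuation_le_one_iff, map_inv₀, hv, inv_one]
  refine ⟨b ^ n * (1 - φ t)⁻¹ + a, add_mem (mul_mem (pow_mem hb n) hinv) ha, ?_⟩
  have hgeom : (∑ j ∈ Finset.range n, φ t ^ j) * (1 - φ t) = 1 - φ t ^ n := by
    have := mul_neg_geom_sum (φ t) n
    rw [mul_comm]
    exact this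
  have e1 : (1 - φ t)⁻¹ - ∑ j ∈ Finset.range n, φ t ^ j = φ t ^ n * (1 - φ t)⁻¹ := by
    field_simp
    linear_combination -hgeom
  have e2 : φ t ^ n = ϖ ^ n * b ^ n := by rw [eb, mul_pow]
  rw [e2] at e1
  linear_combination e1 + ea

/-! ### values in `ϖ A` -/

theorem ecflatAppr0_var (i : σ) (h : ∀ t, ∃ a ∈ A, ev t i = ϖ * a) :
    EcflatAppr0 A ϖ ev (fun t => ev t i) :=
  ⟨ecflatAppr_var i, h⟩

theorem EcflatAppr0.add {φ ψ : ι → K} (hφ : EcflatAppr0 A ϖ ev φ) (hψ : EcflatAppr0 A ϖ ev ψ) :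
    EcflatAppr0 A ϖ ev (fun t => φ t + ψ t) := by
  refine ⟨hφ.1.add hψ.1, fun t => ?_⟩
  obtain ⟨a, ha, ea⟩ := hφ.2 t
  obtain ⟨b, hb, eb⟩ := hψ.2 t
  exact ⟨a + b, add_mem ha hb, by beta_reduce; rw [ea, eb]; ring⟩

theorem EcflatAppr0.neg {φ : ι → K} (hφ : EcflatAppr0 A ϖ ev φ) :
    EcflatAppr0 A ϖ ev (fun t => -φ t) := by
  refine ⟨hφ.1.neg, fun t => ?_⟩
  obtain ⟨a, ha, ea⟩ := hφ.2 t
  exact ⟨-a, neg_mem ha, by beta_reduce; rw [ea]; ring⟩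

theorem EcflatAppr0.sub {φ ψ : ι → K} (hφ : EcflatAppr0 A ϖ ev φ) (hψ : EcflatAppr0 A ϖ ev ψ) :
    EcflatAppr0 A ϖ ev (fun t => φ t - ψ t) := by
  refine ⟨hφ.1.sub hψ.1, fun t => ?_⟩
  obtain ⟨a, ha, ea⟩ := hφ.2 t
  obtain ⟨b, hb, eb⟩ := hψ.2 t
  exact ⟨a - b, sub_mem ha hb, by beta_reduce; rw [ea, eb]; ring⟩

theorem EcflatAppr0.mul_left (hev : ∀ t i, ev t i ∈ A) {φ ψ : ι → K}
    (hφ : EcflatAppr A ϖ ev φ) (hψ : EcflatAppr0 A ϖ ev ψ) :
    EcflatAppr0 A ϖ ev (fun t => φ t * ψ t) := by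
  refine ⟨hφ.mul hev hψ.1, fun t => ?_⟩
  obtain ⟨b, hb, eb⟩ := hψ.2 t
  exact ⟨φ t * b, mul_mem (hφ.mem hev t) hb, by beta_reduce; rw [eb]; ring⟩

theorem EcflatAppr0.mul_right (hev : ∀ t i, ev t i ∈ A) {φ ψ : ι → K}
    (hφ : EcflatAppr0 A ϖ ev φ) (hψ : EcflatAppr A ϖ ev ψ) :
    EcflatAppr0 A ϖ ev (fun t => φ t * ψ t) :=
  ⟨(EcflatAppr0.mul_left hev hψ hφ).1.congr fun t => mul_comm _ _, fun t => by
    obtain ⟨a, ha, ea⟩ := hφ.2 t
    exact ⟨a * ψ t, mul_mem ha (hψ.mem hev t), by beta_reduce; rw [ea]; ring⟩⟩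

theorem EcflatAppr0.const_mul (hev : ∀ t i, ev t i ∈ A) (c : K) (hc : c ∈ A) {ψ : ι → K}
    (hψ : EcflatAppr0 A ϖ ev ψ) : EcflatAppr0 A ϖ ev (fun t => c * ψ t) :=
  EcflatAppr0.mul_left hev (ecflatAppr_const c hc) hψ

theorem EcflatAppr0.pow (hev : ∀ t i, ev t i ∈ A) {φ : ι → K} (hφ : EcflatAppr0 A ϖ ev φ)
    (k : ℕ) (hk : k ≠ 0) : EcflatAppr0 A ϖ ev (fun t => φ t ^ k) := by
  obtain ⟨k, rfl⟩ := Nat.exists_eq_succ_of_ne_zero hk
  have := EcflatAppr0.mul_left hev (hφ.1.pow hev k) hφ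
  exact ⟨this.1.congr fun t => by rw [pow_succ], fun t => by
    obtain ⟨a, ha, ea⟩ := this.2 t
    exact ⟨a, ha, by beta_reduce at ea ⊢; rw [pow_succ, ea]⟩⟩

theorem EcflatAppr0.congr {φ ψ : ι → K} (hφ : EcflatAppr0 A ϖ ev φ) (h : ∀ t, ψ t = φ t) :
    EcflatAppr0 A ϖ ev ψ := by
  have : ψ = φ := funext h
  rw [this]; exact hφ

/-- `φ / (1 - ψ)` for `φ`, `ψ` approximable with values in `ϖ A` -/
theorem EcflatAppr0.div_one_sub (hev : ∀ t i, ev t i ∈ A) (hϖ : ϖ ∈ A.nonunits) {φ ψ : ι → K}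
    (hφ : EcflatAppr0 A ϖ ev φ) (hψ : EcflatAppr0 A ϖ ev ψ) :
    EcflatAppr0 A ϖ ev (fun t => φ t / (1 - ψ t)) :=
  (EcflatAppr0.mul_right hev hφ (hψ.inv_one_sub hev hϖ)).congr fun t => div_eq_mul_inv _ _

/-- a function with values in `ϖ A` which is approximable is in `𝔪` -/
theorem EcflatAppr0.mem_nonunits (hϖ : ϖ ∈ A.nonunits) {φ : ι → K}
    (hφ : EcflatAppr0 A ϖ ev φ) (t : ι) : φ t ∈ A.nonunits := by
  obtain ⟨b, hb, eb⟩ := hφ.2 t
  rw [eb]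
  exact ecflat_mul_mem_nonunits hϖ hb

/-- `1 - φ t ≠ 0` -/
theorem EcflatAppr0.one_sub_ne_zero (hϖ : ϖ ∈ A.nonunits) {φ : ι → K}
    (hφ : EcflatAppr0 A ϖ ev φ) (t : ι) : 1 - φ t ≠ 0 := by
  have hφm := hφ.mem_nonunits hϖ t
  have hv : A.valuation (1 - φ t) = 1 := by
    have := Valuation.map_one_add_of_lt A.valuation
      (show A.valuation (-φ t) < 1 by rw [Valuation.map_neg]; exact A.mem_nonunits_iff.1 hφm)
    rwa [← sub_eq_add_neg] at this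
  intro h0
  rw [h0, map_zero] at hv
  exact zero_ne_one hv

end Fermat.Agent.EC
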