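import Mathlib

/-!
# E-side flatness, part 1: the chord construction in the `(z, w)`-chart (pure field algebra)

For a Weierstrass equation with coefficients `a₁, a₂, a₃, a₄, a₆` in a field `K`, a point
`(x, y)` with `y ≠ 0` has the coordinates `z = -x/y`, `w = -1/y`, and the equation becomes
`w = f(z, w)` with `f = z³ + a₁zw + a₂z²w + a₃w² + a₄zw² + a₆w³`.

For two points `(z₁, w₁)`, `(z₂, w₂)` of the curve, the line through them is `w = λ z + ν` with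
`λ = S / D` (`ecflat_S`, `ecflat_D`), a formula which is also valid when the two points coincide
(tangent).  The third point of intersection is `(z₃, w₃)` with `z₃ = -c₂/c₃ - z₁ - z₂`.

Everything here is an identity of rational functions; no valuation is used.
-/

set_option autoImplicit false

namespace Fermat.Agent.EC

variable {K : Type*} [Field K]

/-- the cubic `f(z, w)` of the `(z, w)`-chart -/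
def ecflat_f (a₁ a₂ a₃ a₄ a₆ z w : K) : K :=
  z ^ 3 + a₁ * z * w + a₂ * z ^ 2 * w + a₃ * w ^ 2 + a₄ * z * w ^ 2 + a₆ * w ^ 3

/-- numerator of the slope -/
def ecflat_S (a₁ a₂ a₄ z₁ w₁ z₂ : K) : K :=
  z₁ ^ 2 + z₁ * z₂ + z₂ ^ 2 + a₁ * w₁ + a₂ * (z₁ + z₂) * w₁ + a₄ * w₁ ^ 2

/-- `1 - ` denominator of the slope -/
def ecflat_M (a₁ a₂ a₃ a₄ a₆ w₁ z₂ w₂ : K) : K :=
  a₁ * z₂ + a₂ * z₂ ^ 2 + a₃ * (w₁ + w₂) + a₄ * z₂ * (w₁ + w₂)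
    + a₆ * (w₁ ^ 2 + w₁ * w₂ + w₂ ^ 2)

/-- the key identity: `f₂ - f₁ = (z₂ - z₁) S + (w₂ - w₁) M` -/
theorem ecflat_f_sub (a₁ a₂ a₃ a₄ a₆ z₁ w₁ z₂ w₂ : K) :
    ecflat_f a₁ a₂ a₃ a₄ a₆ z₂ w₂ - ecflat_f a₁ a₂ a₃ a₄ a₆ z₁ w₁ =
      (z₂ - z₁) * ecflat_S a₁ a₂ a₄ z₁ w₁ z₂
        + (w₂ - w₁) * ecflat_M a₁ a₂ a₃ a₄ a₆ w₁ z₂ w₂ := by
  simp only [ecflat_f, ecflat_S, ecflat_M]
  ring

/-- on the curve: `(w₂ - w₁)(1 - M) = (z₂ - z₁) S` -/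
theorem ecflat_chord (a₁ a₂ a₃ a₄ a₆ z₁ w₁ z₂ w₂ : K)
    (h₁ : w₁ = ecflat_f a₁ a₂ a₃ a₄ a₆ z₁ w₁) (h₂ : w₂ = ecflat_f a₁ a₂ a₃ a₄ a₆ z₂ w₂) :
    (w₂ - w₁) * (1 - ecflat_M a₁ a₂ a₃ a₄ a₆ w₁ z₂ w₂) =
      (z₂ - z₁) * ecflat_S a₁ a₂ a₄ z₁ w₁ z₂ := by
  have := ecflat_f_sub a₁ a₂ a₃ a₄ a₆ z₁ w₁ z₂ w₂
  linear_combination h₂ - h₁ + this

/-- the coefficients of the cubic `g(z) = f(z, λ z + ν) - (λ z + ν)` -/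
def ecflat_c₃ (a₂ a₄ a₆ l : K) : K := 1 + a₂ * l + a₄ * l ^ 2 + a₆ * l ^ 3

def ecflat_c₂ (a₁ a₂ a₃ a₄ a₆ l n : K) : K :=
  a₁ * l + a₂ * n + a₃ * l ^ 2 + 2 * a₄ * l * n + 3 * a₆ * l ^ 2 * n

def ecflat_c₁ (a₁ a₃ a₄ a₆ l n : K) : K :=
  a₁ * n + 2 * a₃ * l * n + a₄ * n ^ 2 + 3 * a₆ * l * n ^ 2 - l

def ecflat_c₀ (a₃ a₆ n : K) : K := a₃ * n ^ 2 + a₆ * n ^ 3 - n

theorem ecflat_g_eq (a₁ a₂ a₃ a₄ a₆ l n z : K) :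
    ecflat_f a₁ a₂ a₃ a₄ a₆ z (l * z + n) - (l * z + n) =
      ecflat_c₃ a₂ a₄ a₆ l * z ^ 3 + ecflat_c₂ a₁ a₂ a₃ a₄ a₆ l n * z ^ 2
        + ecflat_c₁ a₁ a₃ a₄ a₆ l n * z + ecflat_c₀ a₃ a₆ n := by
  simp only [ecflat_f, ecflat_c₃, ecflat_c₂, ecflat_c₁, ecflat_c₀]
  ring

/-- the divided difference of `g` is `S - λ (1 - M)` -/
theorem ecflat_G₁₂ (a₁ a₂ a₃ a₄ a₆ l n z₁ z₂ : K) :
    ecflat_c₃ a₂ a₄ a₆ l * (z₁ ^ 2 + z₁ * z₂ + z₂ ^ 2)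
        + ecflat_c₂ a₁ a₂ a₃ a₄ a₆ l n * (z₁ + z₂) + ecflat_c₁ a₁ a₃ a₄ a₆ l n =
      ecflat_S a₁ a₂ a₄ z₁ (l * z₁ + n) z₂
        - l * (1 - ecflat_M a₁ a₂ a₃ a₄ a₆ (l * z₁ + n) z₂ (l * z₂ + n)) := by
  simp only [ecflat_S, ecflat_M, ecflat_c₃, ecflat_c₂, ecflat_c₁]
  ring

/-- `-λ³ c₀ + λ² ν c₁ - λ ν² c₂ + ν³ c₃ = ν³` -/
theorem ecflat_norm_id (a₁ a₂ a₃ a₄ a₆ l n : K) :
    -l ^ 3 * ecflat_c₀ a₃ a₆ n + l ^ 2 * n * ecflat_c₁ a₁ a₃ a₄ a₆ l n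
        - l * n ^ 2 * ecflat_c₂ a₁ a₂ a₃ a₄ a₆ l n + n ^ 3 * ecflat_c₃ a₂ a₄ a₆ l = n ^ 3 := by
  simp only [ecflat_c₃, ecflat_c₂, ecflat_c₁, ecflat_c₀]
  ring

/-- `-3 λ² c₀ + 2 λ ν c₁ - ν² c₂ = ν (λ² + a₁ λ ν - a₂ ν²)` -/
theorem ecflat_trace_id (a₁ a₂ a₃ a₄ a₆ l n : K) :
    -3 * l ^ 2 * ecflat_c₀ a₃ a₆ n + 2 * l * n * ecflat_c₁ a₁ a₃ a₄ a₆ l n
        - n ^ 2 * ecflat_c₂ a₁ a₂ a₃ a₄ a₆ l n = n * (l ^ 2 + a₁ * l * n - a₂ * n ^ 2) := by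
  simp only [ecflat_c₂, ecflat_c₁, ecflat_c₀]
  ring

/-- **The chord package.**  Two points of the curve in the `(z, w)`-chart, slope `l` with
`l (1 - M) = S`, intercept `n = w₁ - l z₁`, and `c₃ ≠ 0`: the third point `(z₃, w₃)` and the
Vieta relations. -/
structure EcflatChord (a₁ a₂ a₃ a₄ a₆ z₁ w₁ z₂ w₂ l n z₃ w₃ : K) : Prop where
  eq₁ : w₁ = ecflat_f a₁ a₂ a₃ a₄ a₆ z₁ w₁
  eq₂ : w₂ = ecflat_f a₁ a₂ a₃ a₄ a₆ z₂ w₂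
  line₁ : w₁ = l * z₁ + n
  line₂ : w₂ = l * z₂ + n
  line₃ : w₃ = l * z₃ + n
  c₃_ne : ecflat_c₃ a₂ a₄ a₆ l ≠ 0
  vieta₂ : ecflat_c₂ a₁ a₂ a₃ a₄ a₆ l n + ecflat_c₃ a₂ a₄ a₆ l * (z₁ + z₂ + z₃) = 0
  vieta₁ : ecflat_c₁ a₁ a₃ a₄ a₆ l n
    - ecflat_c₃ a₂ a₄ a₆ l * (z₁ * z₂ + z₁ * z₃ + z₂ * z₃) = 0
  vieta₀ : ecflat_c₀ a₃ a₆ n + ecflat_c₃ a₂ a₄ a₆ l * (z₁ * z₂ * z₃) = 0

/-- Construction of the chord package from the slope. -/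
theorem ecflat_chord_mk (a₁ a₂ a₃ a₄ a₆ z₁ w₁ z₂ w₂ l : K)
    (h₁ : w₁ = ecflat_f a₁ a₂ a₃ a₄ a₆ z₁ w₁) (h₂ : w₂ = ecflat_f a₁ a₂ a₃ a₄ a₆ z₂ w₂)
    (hD : 1 - ecflat_M a₁ a₂ a₃ a₄ a₆ w₁ z₂ w₂ ≠ 0)
    (hl : l * (1 - ecflat_M a₁ a₂ a₃ a₄ a₆ w₁ z₂ w₂) = ecflat_S a₁ a₂ a₄ z₁ w₁ z₂)
    (hc₃ : ecflat_c₃ a₂ a₄ a₆ l ≠ 0) :
    EcflatChord a₁ a₂ a₃ a₄ a₆ z₁ w₁ z₂ w₂ l (w₁ - l * z₁)
      (-(ecflat_c₂ a₁ a₂ a₃ a₄ a₆ l (w₁ - l * z₁)) / ecflat_c₃ a₂ a₄ a₆ l - z₁ - z₂)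
      (l * (-(ecflat_c₂ a₁ a₂ a₃ a₄ a₆ l (w₁ - l * z₁)) / ecflat_c₃ a₂ a₄ a₆ l - z₁ - z₂)
        + (w₁ - l * z₁)) := by
  set n := w₁ - l * z₁ with hn
  set z₃ := -(ecflat_c₂ a₁ a₂ a₃ a₄ a₆ l n) / ecflat_c₃ a₂ a₄ a₆ l - z₁ - z₂ with hz₃
  have hline₁ : w₁ = l * z₁ + n := by rw [hn]; ring
  have hline₂ : w₂ = l * z₂ + n := by
    have hch := ecflat_chord a₁ a₂ a₃ a₄ a₆ z₁ w₁ z₂ w₂ h₁ h₂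
    have : (w₂ - (l * z₂ + n)) * (1 - ecflat_M a₁ a₂ a₃ a₄ a₆ w₁ z₂ w₂) = 0 := by
      rw [hn]
      linear_combination hch - (z₂ - z₁) * hl
    rcases mul_eq_zero.1 this with h | h
    · exact sub_eq_zero.1 h
    · exact absurd h hD
  have hv₂ : ecflat_c₂ a₁ a₂ a₃ a₄ a₆ l n + ecflat_c₃ a₂ a₄ a₆ l * (z₁ + z₂ + z₃) = 0 := by
    rw [hz₃]
    field_simp
    ring
  have hG := ecflat_G₁₂ a₁ a₂ a₃ a₄ a₆ l n z₁ z₂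
  rw [← hline₁, ← hline₂] at hG
  have hG0 : ecflat_c₃ a₂ a₄ a₆ l * (z₁ ^ 2 + z₁ * z₂ + z₂ ^ 2)
      + ecflat_c₂ a₁ a₂ a₃ a₄ a₆ l n * (z₁ + z₂) + ecflat_c₁ a₁ a₃ a₄ a₆ l n = 0 := by
    rw [hG]
    linear_combination -hl
  have hv₁ : ecflat_c₁ a₁ a₃ a₄ a₆ l n
      - ecflat_c₃ a₂ a₄ a₆ l * (z₁ * z₂ + z₁ * z₃ + z₂ * z₃) = 0 := by
    linear_combination hG0 - (z₁ + z₂) * hv₂
  have hg₁ := ecflat_g_eq a₁ a₂ a₃ a₄ a₆ l n z₁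
  rw [← hline₁] at hg₁
  have hv₀ : ecflat_c₀ a₃ a₆ n + ecflat_c₃ a₂ a₄ a₆ l * (z₁ * z₂ * z₃) = 0 := by
    linear_combination -hg₁ - h₁ - z₁ ^ 2 * hv₂ - z₁ * hv₁
  exact ⟨h₁, h₂, hline₁, hline₂, rfl, hc₃, hv₂, hv₁, hv₀⟩

namespace EcflatChord

variable {a₁ a₂ a₃ a₄ a₆ z₁ w₁ z₂ w₂ l n z₃ w₃ : K}

/-- the cubic factors -/
theorem g_factor (h : EcflatChord a₁ a₂ a₃ a₄ a₆ z₁ w₁ z₂ w₂ l n z₃ w₃) (z : K) :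
    ecflat_f a₁ a₂ a₃ a₄ a₆ z (l * z + n) - (l * z + n) =
      ecflat_c₃ a₂ a₄ a₆ l * ((z - z₁) * (z - z₂) * (z - z₃)) := by
  rw [ecflat_g_eq]
  linear_combination z ^ 2 * h.vieta₂ + z * h.vieta₁ + h.vieta₀

/-- the third point is on the curve -/
theorem eq₃ (h : EcflatChord a₁ a₂ a₃ a₄ a₆ z₁ w₁ z₂ w₂ l n z₃ w₃) :
    w₃ = ecflat_f a₁ a₂ a₃ a₄ a₆ z₃ w₃ := by
  have := h.g_factor z₃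
  rw [← h.line₃] at this
  linear_combination -this

/-- `c₃ w₁ w₂ w₃ = ν³` -/
theorem c₃_mul_w (h : EcflatChord a₁ a₂ a₃ a₄ a₆ z₁ w₁ z₂ w₂ l n z₃ w₃) :
    ecflat_c₃ a₂ a₄ a₆ l * (w₁ * w₂ * w₃) = n ^ 3 := by
  rw [h.line₁, h.line₂, h.line₃]
  have := ecflat_norm_id a₁ a₂ a₃ a₄ a₆ l n
  linear_combination this + l ^ 3 * h.vieta₀ - l ^ 2 * n * h.vieta₁ + l * n ^ 2 * h.vieta₂

theorem w₃_ne (h : EcflatChord a₁ a₂ a₃ a₄ a₆ z₁ w₁ z₂ w₂ l n z₃ w₃) (hn : n ≠ 0) : w₃ ≠ 0 := by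
  intro h0
  have := h.c₃_mul_w
  rw [h0, mul_zero, mul_zero] at this
  exact pow_ne_zero 3 hn this.symm

/-- if the intercept vanishes (vertical line), the third point is the origin -/
theorem z₃_eq_zero (h : EcflatChord a₁ a₂ a₃ a₄ a₆ z₁ w₁ z₂ w₂ l n z₃ w₃) (hn : n = 0)
    (hz₁ : z₁ ≠ 0) (hz₂ : z₂ ≠ 0) : z₃ = 0 := by
  have h0 := h.vieta₀
  rw [hn] at h0
  simp only [ecflat_c₀] at h0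
  have : ecflat_c₃ a₂ a₄ a₆ l * (z₁ * z₂ * z₃) = 0 := by linear_combination h0
  rcases mul_eq_zero.1 this with h' | h'
  · exact absurd h' h.c₃_ne
  · rcases mul_eq_zero.1 h' with h'' | h''
    · rcases mul_eq_zero.1 h'' with h3 | h3
      · exact absurd h3 hz₁
      · exact absurd h3 hz₂
    · exact h''

/-- **Vieta in the `x`-coordinate**: `x₃ = ℓ² + a₁ ℓ - a₂ - x₁ - x₂` with `ℓ = λ/ν`,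
`x_i = z_i / w_i`. -/
theorem x₃_eq (h : EcflatChord a₁ a₂ a₃ a₄ a₆ z₁ w₁ z₂ w₂ l n z₃ w₃) (hn : n ≠ 0)
    (hw₁ : w₁ ≠ 0) (hw₂ : w₂ ≠ 0) :
    z₃ / w₃ = (l / n) ^ 2 + a₁ * (l / n) - a₂ - z₁ / w₁ - z₂ / w₂ := by
  have hw₃ := h.w₃_ne hn
  have hc := h.c₃_ne
  have key : ecflat_c₃ a₂ a₄ a₆ l * (n ^ 2 * (z₁ * w₂ * w₃ + z₂ * w₁ * w₃ + z₃ * w₁ * w₂)
      - (l ^ 2 + a₁ * l * n - a₂ * n ^ 2) * (w₁ * w₂ * w₃)) = 0 := by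
    rw [h.line₁, h.line₂, h.line₃]
    have e1 := ecflat_norm_id a₁ a₂ a₃ a₄ a₆ l n
    have e2 := ecflat_trace_id a₁ a₂ a₃ a₄ a₆ l n
    linear_combination (n ^ 2 * (3 * l ^ 2) - (l ^ 2 + a₁ * l * n - a₂ * n ^ 2) * l ^ 3) * h.vieta₀
      + (-(2 * l * n ^ 3) + (l ^ 2 + a₁ * l * n - a₂ * n ^ 2) * l ^ 2 * n) * h.vieta₁
      + (n ^ 4 - (l ^ 2 + a₁ * l * n - a₂ * n ^ 2) * l * n ^ 2) * h.vieta₂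
      + n ^ 2 * e2 - (l ^ 2 + a₁ * l * n - a₂ * n ^ 2) * e1
  have key' : n ^ 2 * (z₁ * w₂ * w₃ + z₂ * w₁ * w₃ + z₃ * w₁ * w₂)
      - (l ^ 2 + a₁ * l * n - a₂ * n ^ 2) * (w₁ * w₂ * w₃) = 0 := by
    rcases mul_eq_zero.1 key with h' | h'
    · exact absurd h' hc
    · exact h'
  field_simp
  linear_combination key'

/-- the `y`-coordinate of the third point: `ℓ (x₃ - x₁) + y₁ = y₃` with `y_i = -1 / w_i` -/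
theorem y₃_eq (h : EcflatChord a₁ a₂ a₃ a₄ a₆ z₁ w₁ z₂ w₂ l n z₃ w₃) (hn : n ≠ 0)
    (hw₁ : w₁ ≠ 0) :
    (l / n) * (z₃ / w₃ - z₁ / w₁) + -1 / w₁ = -1 / w₃ := by
  have hw₃ := h.w₃_ne hn
  have e1 : z₃ * w₁ - z₁ * w₃ = n * (z₃ - z₁) := by
    rw [h.line₁, h.line₃]; ring
  have e2 : w₃ - w₁ = l * (z₃ - z₁) := by
    rw [h.line₁, h.line₃]; ring
  field_simp
  linear_combination l * e1 - n * e2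

end EcflatChord

end Fermat.Agent.EC

namespace Fermat.Agent.EC

variable {K : Type*} [Field K]

/-- the slope `λ = S / (1 - M)` -/
noncomputable def ecflat_lam (a₁ a₂ a₃ a₄ a₆ z₁ w₁ z₂ w₂ : K) : K :=
  ecflat_S a₁ a₂ a₄ z₁ w₁ z₂ / (1 - ecflat_M a₁ a₂ a₃ a₄ a₆ w₁ z₂ w₂)

/-- the intercept `ν = w₁ - λ z₁` -/
noncomputable def ecflat_nu (a₁ a₂ a₃ a₄ a₆ z₁ w₁ z₂ w₂ : K) : K :=
  w₁ - ecflat_lam a₁ a₂ a₃ a₄ a₆ z₁ w₁ z₂ w₂ * z₁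

/-- the `z`-coordinate of the third point of the chord -/
noncomputable def ecflat_z₃ (a₁ a₂ a₃ a₄ a₆ z₁ w₁ z₂ w₂ : K) : K :=
  -(ecflat_c₂ a₁ a₂ a₃ a₄ a₆ (ecflat_lam a₁ a₂ a₃ a₄ a₆ z₁ w₁ z₂ w₂)
      (ecflat_nu a₁ a₂ a₃ a₄ a₆ z₁ w₁ z₂ w₂))
    / ecflat_c₃ a₂ a₄ a₆ (ecflat_lam a₁ a₂ a₃ a₄ a₆ z₁ w₁ z₂ w₂) - z₁ - z₂

/-- the `w`-coordinate of the third point of the chord -/
noncomputable def ecflat_w₃ (a₁ a₂ a₃ a₄ a₆ z₁ w₁ z₂ w₂ : K) : K :=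
  ecflat_lam a₁ a₂ a₃ a₄ a₆ z₁ w₁ z₂ w₂ * ecflat_z₃ a₁ a₂ a₃ a₄ a₆ z₁ w₁ z₂ w₂
    + ecflat_nu a₁ a₂ a₃ a₄ a₆ z₁ w₁ z₂ w₂

/-- **the addition formula** in the `(z, w)`-chart: the `z`-coordinate of the sum -/
noncomputable def ecflat_Phi (a₁ a₂ a₃ a₄ a₆ z₁ w₁ z₂ w₂ : K) : K :=
  -(ecflat_z₃ a₁ a₂ a₃ a₄ a₆ z₁ w₁ z₂ w₂)
    / (1 - a₁ * ecflat_z₃ a₁ a₂ a₃ a₄ a₆ z₁ w₁ z₂ w₂
        - a₃ * ecflat_w₃ a₁ a₂ a₃ a₄ a₆ z₁ w₁ z₂ w₂)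

/-- the chord package of the canonical slope -/
theorem ecflat_chord_canon (a₁ a₂ a₃ a₄ a₆ z₁ w₁ z₂ w₂ : K)
    (h₁ : w₁ = ecflat_f a₁ a₂ a₃ a₄ a₆ z₁ w₁) (h₂ : w₂ = ecflat_f a₁ a₂ a₃ a₄ a₆ z₂ w₂)
    (hD : 1 - ecflat_M a₁ a₂ a₃ a₄ a₆ w₁ z₂ w₂ ≠ 0)
    (hc₃ : ecflat_c₃ a₂ a₄ a₆ (ecflat_lam a₁ a₂ a₃ a₄ a₆ z₁ w₁ z₂ w₂) ≠ 0) :
    EcflatChord a₁ a₂ a₃ a₄ a₆ z₁ w₁ z₂ w₂ (ecflat_lam a₁ a₂ a₃ a₄ a₆ z₁ w₁ z₂ w₂)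
      (ecflat_nu a₁ a₂ a₃ a₄ a₆ z₁ w₁ z₂ w₂) (ecflat_z₃ a₁ a₂ a₃ a₄ a₆ z₁ w₁ z₂ w₂)
      (ecflat_w₃ a₁ a₂ a₃ a₄ a₆ z₁ w₁ z₂ w₂) :=
  ecflat_chord_mk a₁ a₂ a₃ a₄ a₆ z₁ w₁ z₂ w₂ _ h₁ h₂ hD
    (by rw [ecflat_lam]; exact div_mul_cancel₀ _ hD) hc₃

/-- the tangent identity: `w (1 - M) - z S = w - 3 f + a₁ z w + a₃ w²` at coinciding points -/
theorem ecflat_tangent_id (a₁ a₂ a₃ a₄ a₆ z w : K) :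
    w * (1 - ecflat_M a₁ a₂ a₃ a₄ a₆ w z w) - z * ecflat_S a₁ a₂ a₄ z w z =
      w - 3 * ecflat_f a₁ a₂ a₃ a₄ a₆ z w + a₁ * z * w + a₃ * w ^ 2 := by
  simp only [ecflat_f, ecflat_S, ecflat_M]
  ring

end Fermat.Agent.EC

namespace Fermat.Agent.EC.EcflatChord

variable {K : Type*} [Field K] {a₁ a₂ a₃ a₄ a₆ z₁ w₁ z₂ w₂ l n z₃ w₃ : K}

/-- chord through the origin and `(z₂, w₂)`: the formula returns `z₂` -/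
theorem phi_of_left_zero (h : EcflatChord a₁ a₂ a₃ a₄ a₆ 0 0 z₂ w₂ l n z₃ w₃)
    (hU : 1 - a₁ * z₃ - a₃ * w₃ ≠ 0) : -z₃ / (1 - a₁ * z₃ - a₃ * w₃) = z₂ := by
  have hn : n = 0 := by
    have := h.line₁
    linear_combination -this
  have h2 := h.vieta₂
  have h1 := h.vieta₁
  rw [hn] at h2 h1
  simp only [ecflat_c₂, ecflat_c₁] at h2 h1
  have key : ecflat_c₃ a₂ a₄ a₆ l * (z₃ + z₂ - (a₁ + a₃ * l) * (z₂ * z₃)) = 0 := by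
    linear_combination h2 + (a₁ + a₃ * l) * h1
  have key' : z₃ + z₂ - (a₁ + a₃ * l) * (z₂ * z₃) = 0 := by
    rcases mul_eq_zero.1 key with h' | h'
    · exact absurd h' h.c₃_ne
    · exact h'
  rw [div_eq_iff hU, h.line₃, hn]
  linear_combination -key'

/-- chord through `(z₁, w₁)` and the origin: the formula returns `z₁` -/
theorem phi_of_right_zero (h : EcflatChord a₁ a₂ a₃ a₄ a₆ z₁ w₁ 0 0 l n z₃ w₃)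
    (hU : 1 - a₁ * z₃ - a₃ * w₃ ≠ 0) : -z₃ / (1 - a₁ * z₃ - a₃ * w₃) = z₁ := by
  have hn : n = 0 := by
    have := h.line₂
    linear_combination -this
  have h2 := h.vieta₂
  have h1 := h.vieta₁
  rw [hn] at h2 h1
  simp only [ecflat_c₂, ecflat_c₁] at h2 h1
  have key : ecflat_c₃ a₂ a₄ a₆ l * (z₃ + z₁ - (a₁ + a₃ * l) * (z₁ * z₃)) = 0 := by
    linear_combination h2 + (a₁ + a₃ * l) * h1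
  have key' : z₃ + z₁ - (a₁ + a₃ * l) * (z₁ * z₃) = 0 := by
    rcases mul_eq_zero.1 key with h' | h'
    · exact absurd h' h.c₃_ne
    · exact h'
  rw [div_eq_iff hU, h.line₃, hn]
  linear_combination -key'

end Fermat.Agent.EC.EcflatChord
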