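import Mathlib
import Fermat.Agent.EC.Flat.ZW
import Fermat.Agent.EC.Flat.Appr

/-!
# E-side flatness, part 4: the addition formula `Φ` is approximable

* `ecflat_w_appr0` : the `w`-coordinate (the solution in `𝔪` of `w = f(z, w)`) is an
  approximable function of `z`;
* `ecflat_Phi_appr0` : `Φ(z₁, w₁, z₂, w₂)` is approximable, together with the unit conditions
  needed by `ecflat_z_add`.
-/

set_option autoImplicit false

namespace Fermat.Agent.EC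

variable {K : Type*} [Field K] {A : ValuationSubring K} {ϖ : K} {ι σ : Type*}
  {ev : ι → σ → K}

section W

variable {a₁ a₂ a₃ a₄ a₆ : K}

/-- the polynomial `f(u, ψ)` in two approximable functions with values in `ϖ A` -/
theorem ecflat_f_appr0 (hev : ∀ t i, ev t i ∈ A) (h₁ : a₁ ∈ A) (h₂ : a₂ ∈ A) (h₃ : a₃ ∈ A)
    (h₄ : a₄ ∈ A) (h₆ : a₆ ∈ A) {u ψ : ι → K} (hu : EcflatAppr0 A ϖ ev u)
    (hψ : EcflatAppr0 A ϖ ev ψ) :
    EcflatAppr0 A ϖ ev (fun t => ecflat_f a₁ a₂ a₃ a₄ a₆ (u t) (ψ t)) := by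
  have t1 := hu.pow hev 3 (by norm_num)
  have t2 := (EcflatAppr0.mul_right hev hu hψ.1).const_mul hev a₁ h₁
  have t3 := (EcflatAppr0.mul_right hev (hu.pow hev 2 (by norm_num)) hψ.1).const_mul hev a₂ h₂
  have t4 := (hψ.pow hev 2 (by norm_num)).const_mul hev a₃ h₃
  have t5 := (EcflatAppr0.mul_right hev hu (hψ.1.pow hev 2)).const_mul hev a₄ h₄
  have t6 := (hψ.pow hev 3 (by norm_num)).const_mul hev a₆ h₆
  exact (((((t1.add t2).add t3).add t4).add t5).add t6).congr fun t => by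
    simp only [ecflat_f]; ring

/-- the function `M` of three approximable functions with values in `ϖ A` -/
theorem ecflat_M_appr0 (hev : ∀ t i, ev t i ∈ A) (h₁ : a₁ ∈ A) (h₂ : a₂ ∈ A) (h₃ : a₃ ∈ A)
    (h₄ : a₄ ∈ A) (h₆ : a₆ ∈ A) {w₁ v w₂ : ι → K} (hw₁ : EcflatAppr0 A ϖ ev w₁)
    (hv : EcflatAppr0 A ϖ ev v) (hw₂ : EcflatAppr0 A ϖ ev w₂) :
    EcflatAppr0 A ϖ ev (fun t => ecflat_M a₁ a₂ a₃ a₄ a₆ (w₁ t) (v t) (w₂ t)) := by
  have t1 := hv.const_mul hev a₁ h₁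
  have t2 := (hv.pow hev 2 (by norm_num)).const_mul hev a₂ h₂
  have t3 := (hw₁.add hw₂).const_mul hev a₃ h₃
  have t4 := (EcflatAppr0.mul_right hev hv (hw₁.add hw₂).1).const_mul hev a₄ h₄
  have t5 := (((hw₁.pow hev 2 (by norm_num)).add (EcflatAppr0.mul_right hev hw₁ hw₂.1)).add
    (hw₂.pow hev 2 (by norm_num))).const_mul hev a₆ h₆
  exact ((((t1.add t2).add t3).add t4).add t5).congr fun t => by
    simp only [ecflat_M]; ring

/-- **The `w`-coordinate is approximable.** -/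
theorem ecflat_w_appr0 (hev : ∀ t i, ev t i ∈ A) (hϖ : ϖ ∈ A.nonunits)
    (h₁ : a₁ ∈ A) (h₂ : a₂ ∈ A) (h₃ : a₃ ∈ A) (h₄ : a₄ ∈ A) (h₆ : a₆ ∈ A)
    {u w : ι → K} (hu : EcflatAppr0 A ϖ ev u) (hw : ∀ t, w t ∈ A.nonunits)
    (heq : ∀ t, w t = ecflat_f a₁ a₂ a₃ a₄ a₆ (u t) (w t)) :
    EcflatAppr0 A ϖ ev w := by
  -- step 1: values in `ϖ A`
  have hval : ∀ t, ∃ a ∈ A, w t = ϖ * a := by
    intro t
    obtain ⟨b, hb, eb⟩ := hu.2 t
    have huA : u t ∈ A := by rw [eb]; exact mul_mem (A.nonunits_subset hϖ) hb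
    have hwA : w t ∈ A := A.nonunits_subset (hw t)
    set m := a₁ * u t + a₂ * u t ^ 2 + a₃ * w t + a₄ * u t * w t + a₆ * w t ^ 2 with hm
    have hmm : m ∈ A.nonunits := by
      have e : m = u t * (a₁ + a₂ * u t) + w t * (a₃ + a₄ * u t + a₆ * w t) := by
        rw [hm]; ring
      rw [e]
      have hum : u t ∈ A.nonunits := by rw [eb]; exact ecflat_mul_mem_nonunits hϖ hb
      exact add_mem (ecflat_mul_mem_nonunits hum (add_mem h₁ (mul_mem h₂ huA)))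
        (ecflat_mul_mem_nonunits (hw t)
          (add_mem (add_mem h₃ (mul_mem h₄ huA)) (mul_mem h₆ hwA)))
    have hv : A.valuation (1 - m) = 1 := by
      have := Valuation.map_one_add_of_lt A.valuation
        (show A.valuation (-m) < 1 by rw [Valuation.map_neg]; exact A.mem_nonunits_iff.1 hmm)
      rwa [← sub_eq_add_neg] at this
    have hne : 1 - m ≠ 0 := by
      intro h0
      rw [h0, map_zero] at hv
      exact zero_ne_one hv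
    have hinv : (1 - m)⁻¹ ∈ A := by
      rw [← A.valuation_le_one_iff, map_inv₀, hv, inv_one]
    have hkey : w t * (1 - m) = u t ^ 3 := by
      have := heq t
      simp only [ecflat_f] at this
      rw [hm]
      linear_combination this
    refine ⟨ϖ ^ 2 * b ^ 3 * (1 - m)⁻¹,
      mul_mem (mul_mem (pow_mem (A.nonunits_subset hϖ) 2) (pow_mem hb 3)) hinv, ?_⟩
    have : w t = u t ^ 3 * (1 - m)⁻¹ := by
      rw [← hkey]; field_simp
    rw [this, eb]; ring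
  -- step 2: successive approximation
  have hstep : ∀ n : ℕ, ∃ ψ : ι → K, EcflatAppr0 A ϖ ev ψ ∧
      ∀ t, ∃ a ∈ A, w t - ψ t = ϖ ^ n * a := by
    intro n
    induction n with
    | zero =>
      refine ⟨fun _ => 0, ⟨ecflatAppr_const 0 A.zero_mem, fun t => ⟨0, A.zero_mem, by simp⟩⟩,
        fun t => ⟨w t, A.nonunits_subset (hw t), by simp⟩⟩
    | succ n ih =>
      obtain ⟨ψ, hψ, hψw⟩ := ih
      refine ⟨fun t => ecflat_f a₁ a₂ a₃ a₄ a₆ (u t) (ψ t),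
        ecflat_f_appr0 hev h₁ h₂ h₃ h₄ h₆ hu hψ, fun t => ?_⟩
      obtain ⟨a, ha, ea⟩ := hψw t
      have hsub := ecflat_f_sub a₁ a₂ a₃ a₄ a₆ (u t) (ψ t) (u t) (w t)
      -- `M (ψ, u, w) ∈ ϖ A`
      have hM : EcflatAppr0 A ϖ ev (fun t => ecflat_M a₁ a₂ a₃ a₄ a₆ (ψ t) (u t) (ψ t)) :=
        ecflat_M_appr0 hev h₁ h₂ h₃ h₄ h₆ hψ hu hψ
      obtain ⟨b, hb, eb⟩ := hu.2 t
      obtain ⟨c, hc, ec⟩ := hψ.2 t
      obtain ⟨d, hd, ed⟩ := hval t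
      have huA : u t ∈ A := by rw [eb]; exact mul_mem (A.nonunits_subset hϖ) hb
      have hwA : w t ∈ A := A.nonunits_subset (hw t)
      have hψA : ψ t ∈ A := by rw [ec]; exact mul_mem (A.nonunits_subset hϖ) hc
      refine ⟨a * (a₁ * b + a₂ * b * u t + a₃ * (c + d) + a₄ * u t * (c + d)
        + a₆ * (c * ψ t + c * w t + d * w t)), ?_, ?_⟩
      · exact mul_mem ha (add_mem (add_mem (add_mem (add_mem (mul_mem h₁ hb)
          (mul_mem (mul_mem h₂ hb) huA)) (mul_mem h₃ (add_mem hc hd)))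
          (mul_mem (mul_mem h₄ huA) (add_mem hc hd)))
          (mul_mem h₆ (add_mem (add_mem (mul_mem hc hψA) (mul_mem hc hwA)) (mul_mem hd hwA))))
      · have e1 : w t - ecflat_f a₁ a₂ a₃ a₄ a₆ (u t) (ψ t)
            = (w t - ψ t) * ecflat_M a₁ a₂ a₃ a₄ a₆ (ψ t) (u t) (w t) := by
          have := heq t
          linear_combination this + hsub
        have e2 : ecflat_M a₁ a₂ a₃ a₄ a₆ (ψ t) (u t) (w t)
            = ϖ * (a₁ * b + a₂ * b * u t + a₃ * (c + d) + a₄ * u t * (c + d)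
              + a₆ * (c * ψ t + c * w t + d * w t)) := by
          simp only [ecflat_M]
          have e3 : a₁ * u t + a₂ * u t ^ 2 + a₃ * (ψ t + w t) + a₄ * u t * (ψ t + w t)
              + a₆ * (ψ t ^ 2 + ψ t * w t + w t ^ 2)
              = a₁ * (ϖ * b) + a₂ * (ϖ * b) * u t + a₃ * (ϖ * c + ϖ * d)
                + a₄ * u t * (ϖ * c + ϖ * d)
                + a₆ * ((ϖ * c) * ψ t + (ϖ * c) * w t + (ϖ * d) * w t) := by
            rw [← eb, ← ec, ← ed]; ring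
          rw [e3]; ring
        show w t - ecflat_f a₁ a₂ a₃ a₄ a₆ (u t) (ψ t) = _
        rw [e1, ea, e2]; ring
  refine ⟨fun n => ?_, hval⟩
  obtain ⟨ψ, hψ, hψw⟩ := hstep n
  obtain ⟨F, hF⟩ := hψ.1 n
  refine ⟨F, fun t => ?_⟩
  obtain ⟨a, ha, ea⟩ := hψw t
  obtain ⟨b, hb, eb⟩ := hF t
  exact ⟨a + b, add_mem ha hb, by linear_combination ea + eb⟩

end W

section Phi

variable {a₁ a₂ a₃ a₄ a₆ : K}

/-- all the intermediate quantities of the chord construction are approximable with values in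
`ϖ A`; in particular the unit conditions hold. -/
theorem ecflat_chord_appr0 (hev : ∀ t i, ev t i ∈ A) (hϖ : ϖ ∈ A.nonunits)
    (h₁ : a₁ ∈ A) (h₂ : a₂ ∈ A) (h₃ : a₃ ∈ A) (h₄ : a₄ ∈ A) (h₆ : a₆ ∈ A)
    {u w₁ v w₂ : ι → K} (hu : EcflatAppr0 A ϖ ev u) (hw₁ : EcflatAppr0 A ϖ ev w₁)
    (hv : EcflatAppr0 A ϖ ev v) (hw₂ : EcflatAppr0 A ϖ ev w₂) :
    EcflatAppr0 A ϖ ev (fun t => ecflat_lam a₁ a₂ a₃ a₄ a₆ (u t) (w₁ t) (v t) (w₂ t)) ∧
    EcflatAppr0 A ϖ ev (fun t => ecflat_nu a₁ a₂ a₃ a₄ a₆ (u t) (w₁ t) (v t) (w₂ t)) ∧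
    EcflatAppr0 A ϖ ev (fun t => ecflat_z₃ a₁ a₂ a₃ a₄ a₆ (u t) (w₁ t) (v t) (w₂ t)) ∧
    EcflatAppr0 A ϖ ev (fun t => ecflat_w₃ a₁ a₂ a₃ a₄ a₆ (u t) (w₁ t) (v t) (w₂ t)) ∧
    EcflatAppr0 A ϖ ev (fun t => ecflat_Phi a₁ a₂ a₃ a₄ a₆ (u t) (w₁ t) (v t) (w₂ t)) ∧
    (∀ t, 1 - ecflat_M a₁ a₂ a₃ a₄ a₆ (w₁ t) (v t) (w₂ t) ≠ 0) ∧
    (∀ t, ecflat_c₃ a₂ a₄ a₆ (ecflat_lam a₁ a₂ a₃ a₄ a₆ (u t) (w₁ t) (v t) (w₂ t)) ≠ 0) ∧
    (∀ t, 1 - a₁ * ecflat_z₃ a₁ a₂ a₃ a₄ a₆ (u t) (w₁ t) (v t) (w₂ t)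
      - a₃ * ecflat_w₃ a₁ a₂ a₃ a₄ a₆ (u t) (w₁ t) (v t) (w₂ t) ≠ 0) := by
  -- S
  have hS : EcflatAppr0 A ϖ ev (fun t => ecflat_S a₁ a₂ a₄ (u t) (w₁ t) (v t)) := by
    have t1 := hu.pow hev 2 (by norm_num)
    have t2 := EcflatAppr0.mul_right hev hu hv.1
    have t3 := hv.pow hev 2 (by norm_num)
    have t4 := hw₁.const_mul hev a₁ h₁
    have t5 := (EcflatAppr0.mul_right hev (hu.add hv) hw₁.1).const_mul hev a₂ h₂
    have t6 := (hw₁.pow hev 2 (by norm_num)).const_mul hev a₄ h₄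
    exact (((((t1.add t2).add t3).add t4).add t5).add t6).congr fun t => by
      simp only [ecflat_S]; ring
  have hM := ecflat_M_appr0 hev h₁ h₂ h₃ h₄ h₆ hw₁ hv hw₂
  have hlam : EcflatAppr0 A ϖ ev
      (fun t => ecflat_lam a₁ a₂ a₃ a₄ a₆ (u t) (w₁ t) (v t) (w₂ t)) :=
    (hS.div_one_sub hev hϖ hM).congr fun t => rfl
  have hnu : EcflatAppr0 A ϖ ev
      (fun t => ecflat_nu a₁ a₂ a₃ a₄ a₆ (u t) (w₁ t) (v t) (w₂ t)) :=
    (hw₁.sub (EcflatAppr0.mul_right hev hlam hu.1)).congr fun t => rfl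
  set l : ι → K := fun t => ecflat_lam a₁ a₂ a₃ a₄ a₆ (u t) (w₁ t) (v t) (w₂ t) with hl
  set n : ι → K := fun t => ecflat_nu a₁ a₂ a₃ a₄ a₆ (u t) (w₁ t) (v t) (w₂ t) with hn
  -- c₃ = 1 - N₃
  have hN₃ : EcflatAppr0 A ϖ ev (fun t => -(a₂ * l t + a₄ * l t ^ 2 + a₆ * l t ^ 3)) := by
    have t1 := hlam.const_mul hev a₂ h₂
    have t2 := (hlam.pow hev 2 (by norm_num)).const_mul hev a₄ h₄
    have t3 := (hlam.pow hev 3 (by norm_num)).const_mul hev a₆ h₆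
    exact ((t1.add t2).add t3).neg
  have hc₃e : ∀ t, ecflat_c₃ a₂ a₄ a₆ (l t) = 1 - -(a₂ * l t + a₄ * l t ^ 2 + a₆ * l t ^ 3) := by
    intro t; simp only [ecflat_c₃]; ring
  have hc₂ : EcflatAppr0 A ϖ ev (fun t => ecflat_c₂ a₁ a₂ a₃ a₄ a₆ (l t) (n t)) := by
    have t1 := hlam.const_mul hev a₁ h₁
    have t2 := hnu.const_mul hev a₂ h₂
    have t3 := (hlam.pow hev 2 (by norm_num)).const_mul hev a₃ h₃
    have t4 := (EcflatAppr0.mul_right hev hlam hnu.1).const_mul hev (2 * a₄)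
      (mul_mem (ofNat_mem A 2) h₄)
    have t5 := (EcflatAppr0.mul_right hev (hlam.pow hev 2 (by norm_num)) hnu.1).const_mul hev
      (3 * a₆) (mul_mem (ofNat_mem A 3) h₆)
    exact ((((t1.add t2).add t3).add t4).add t5).congr fun t => by
      simp only [ecflat_c₂]; ring
  have hz₃ : EcflatAppr0 A ϖ ev
      (fun t => ecflat_z₃ a₁ a₂ a₃ a₄ a₆ (u t) (w₁ t) (v t) (w₂ t)) := by
    have t1 := hc₂.neg.div_one_sub hev hϖ hN₃
    exact ((t1.sub hu).sub hv).congr fun t => by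
      simp only [ecflat_z₃]
      rw [hc₃e t]
  have hw₃ : EcflatAppr0 A ϖ ev
      (fun t => ecflat_w₃ a₁ a₂ a₃ a₄ a₆ (u t) (w₁ t) (v t) (w₂ t)) :=
    ((EcflatAppr0.mul_right hev hlam hz₃.1).add hnu).congr fun t => rfl
  have hU : EcflatAppr0 A ϖ ev
      (fun t => a₁ * ecflat_z₃ a₁ a₂ a₃ a₄ a₆ (u t) (w₁ t) (v t) (w₂ t)
        + a₃ * ecflat_w₃ a₁ a₂ a₃ a₄ a₆ (u t) (w₁ t) (v t) (w₂ t)) :=
    (hz₃.const_mul hev a₁ h₁).add (hw₃.const_mul hev a₃ h₃)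
  have hPhi : EcflatAppr0 A ϖ ev
      (fun t => ecflat_Phi a₁ a₂ a₃ a₄ a₆ (u t) (w₁ t) (v t) (w₂ t)) :=
    (hz₃.neg.div_one_sub hev hϖ hU).congr fun t => by
      simp only [ecflat_Phi]
      congr 1
      ring
  refine ⟨hlam, hnu, hz₃, hw₃, hPhi, fun t => hM.one_sub_ne_zero hϖ t, fun t => ?_, fun t => ?_⟩
  · rw [hc₃e t]
    exact hN₃.one_sub_ne_zero hϖ t
  · have := hU.one_sub_ne_zero hϖ t
    intro h0
    apply this
    linear_combination h0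

end Phi

end Fermat.Agent.EC
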