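import Mathlib
import Fermat.Agent.EC.Flat.ZW

/-!
# E-side flatness, part 2: the `z`-coordinate of a sum of two points

`ecflat_z P = -x/y`, `ecflat_w P = -1/y` (both `0` at the origin).  For two affine points with
nonzero `x` and `y` (and the unit conditions `1 - M ≠ 0`, `c₃ ≠ 0`):

  `ecflat_z (P₁ + P₂) = ecflat_Phi (z₁, w₁, z₂, w₂)`  (`ecflat_z_add`).
-/

set_option autoImplicit false

namespace Fermat.Agent.EC

open WeierstrassCurve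

variable {K : Type*} [Field K] {W : WeierstrassCurve K}

/-- the `z`-coordinate of a point -/
noncomputable def ecflat_z : W.toAffine.Point → K
  | .zero => 0
  | .some x y _ => -x / y

/-- the `w`-coordinate of a point -/
noncomputable def ecflat_w : W.toAffine.Point → K
  | .zero => 0
  | .some _ y _ => -1 / y

@[simp] theorem ecflat_z_zero : ecflat_z (0 : W.toAffine.Point) = 0 := rfl
@[simp] theorem ecflat_w_zero : ecflat_w (0 : W.toAffine.Point) = 0 := rfl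

theorem ecflat_z_some {x y : K} (h : W.toAffine.Nonsingular x y) :
    ecflat_z (Affine.Point.some x y h) = -x / y := rfl

theorem ecflat_w_some {x y : K} (h : W.toAffine.Nonsingular x y) :
    ecflat_w (Affine.Point.some x y h) = -1 / y := rfl

/-- the Weierstrass equation in the `(z, w)`-chart -/
theorem ecflat_eq_zw {x y : K} (h : W.toAffine.Equation x y) (hy : y ≠ 0) :
    -1 / y = ecflat_f W.a₁ W.a₂ W.a₃ W.a₄ W.a₆ (-x / y) (-1 / y) := by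
  have heq := (Affine.equation_iff _ _).1 h
  simp only [ecflat_f]
  field_simp
  linear_combination -heq

theorem ecflat_x_eq {x y : K} (hy : y ≠ 0) : x = (-x / y) / (-1 / y) := by
  field_simp

theorem ecflat_y_eq {y : K} (hy : y ≠ 0) : y = -1 / (-1 / y) := by
  field_simp

/-- the common tail: once the Mathlib slope is `λ/ν`, the sum has `z`-coordinate `Φ` -/
theorem ecflat_z_add_aux [DecidableEq K] {x₁ y₁ x₂ y₂ : K}
    (h₁ : W.toAffine.Nonsingular x₁ y₁) (h₂ : W.toAffine.Nonsingular x₂ y₂)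
    (hy₁ : y₁ ≠ 0) (hy₂ : y₂ ≠ 0)
    (hxy : ¬(x₁ = x₂ ∧ y₁ = W.toAffine.negY x₂ y₂))
    {l n z₃ w₃ : K}
    (hch : EcflatChord W.a₁ W.a₂ W.a₃ W.a₄ W.a₆ (-x₁ / y₁) (-1 / y₁) (-x₂ / y₂) (-1 / y₂)
      l n z₃ w₃)
    (hn : n ≠ 0) (hsl : W.toAffine.slope x₁ x₂ y₁ y₂ = l / n) :
    ecflat_z (Affine.Point.some x₁ y₁ h₁ + Affine.Point.some x₂ y₂ h₂) =
      -z₃ / (1 - W.a₁ * z₃ - W.a₃ * w₃) := by
  rw [Affine.Point.add_some hxy, ecflat_z_some]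
  have hw₁ : (-1 / y₁ : K) ≠ 0 := div_ne_zero (neg_ne_zero.2 one_ne_zero) hy₁
  have hw₂ : (-1 / y₂ : K) ≠ 0 := div_ne_zero (neg_ne_zero.2 one_ne_zero) hy₂
  have hw₃ := hch.w₃_ne hn
  have hX : W.toAffine.addX x₁ x₂ (W.toAffine.slope x₁ x₂ y₁ y₂) = z₃ / w₃ := by
    rw [hsl, hch.x₃_eq hn hw₁ hw₂, Affine.addX, ← ecflat_x_eq hy₁, ← ecflat_x_eq hy₂]
  have hY : W.toAffine.negAddY x₁ x₂ y₁ (W.toAffine.slope x₁ x₂ y₁ y₂) = -1 / w₃ := by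
    rw [Affine.negAddY, hX, hsl]
    have := hch.y₃_eq hn hw₁
    rw [← ecflat_x_eq hy₁, ← ecflat_y_eq hy₁] at this
    exact this
  rw [Affine.addY, hX, hY, Affine.negY]
  field_simp

/-- **The `z`-coordinate of a sum.**  Two affine points with nonzero coordinates; the unit
conditions `1 - M ≠ 0`, `c₃ ≠ 0`, `1 - a₁ z₃ - a₃ w₃ ≠ 0` hold in the kernel of reduction. -/
theorem ecflat_z_add [DecidableEq K] {x₁ y₁ x₂ y₂ : K}
    (h₁ : W.toAffine.Nonsingular x₁ y₁) (h₂ : W.toAffine.Nonsingular x₂ y₂)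
    (hx₁ : x₁ ≠ 0) (hx₂ : x₂ ≠ 0) (hy₁ : y₁ ≠ 0) (hy₂ : y₂ ≠ 0)
    (hD : 1 - ecflat_M W.a₁ W.a₂ W.a₃ W.a₄ W.a₆ (-1 / y₁) (-x₂ / y₂) (-1 / y₂) ≠ 0)
    (hD' : 1 - ecflat_M W.a₁ W.a₂ W.a₃ W.a₄ W.a₆ (-1 / y₁) (-x₁ / y₁) (-1 / y₁) ≠ 0)
    (hc₃ : ecflat_c₃ W.a₂ W.a₄ W.a₆
      (ecflat_lam W.a₁ W.a₂ W.a₃ W.a₄ W.a₆ (-x₁ / y₁) (-1 / y₁) (-x₂ / y₂) (-1 / y₂)) ≠ 0) :
    ecflat_z (Affine.Point.some x₁ y₁ h₁ + Affine.Point.some x₂ y₂ h₂) =
      ecflat_Phi W.a₁ W.a₂ W.a₃ W.a₄ W.a₆ (-x₁ / y₁) (-1 / y₁) (-x₂ / y₂) (-1 / y₂) := by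
  have e₁ := ecflat_eq_zw h₁.1 hy₁
  have e₂ := ecflat_eq_zw h₂.1 hy₂
  have hch := ecflat_chord_canon W.a₁ W.a₂ W.a₃ W.a₄ W.a₆ _ _ _ _ e₁ e₂ hD hc₃
  set z₁ : K := -x₁ / y₁ with hz₁
  set w₁ : K := -1 / y₁ with hw₁
  set z₂ : K := -x₂ / y₂ with hz₂
  set w₂ : K := -1 / y₂ with hw₂
  set l := ecflat_lam W.a₁ W.a₂ W.a₃ W.a₄ W.a₆ z₁ w₁ z₂ w₂ with hl
  set n := ecflat_nu W.a₁ W.a₂ W.a₃ W.a₄ W.a₆ z₁ w₁ z₂ w₂ with hn
  set z₃ := ecflat_z₃ W.a₁ W.a₂ W.a₃ W.a₄ W.a₆ z₁ w₁ z₂ w₂ with hz₃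
  set w₃ := ecflat_w₃ W.a₁ W.a₂ W.a₃ W.a₄ W.a₆ z₁ w₁ z₂ w₂ with hw₃
  have hz₁0 : z₁ ≠ 0 := div_ne_zero (neg_ne_zero.2 hx₁) hy₁
  have hz₂0 : z₂ ≠ 0 := div_ne_zero (neg_ne_zero.2 hx₂) hy₂
  have hw₁0 : w₁ ≠ 0 := div_ne_zero (neg_ne_zero.2 one_ne_zero) hy₁
  have hw₂0 : w₂ ≠ 0 := div_ne_zero (neg_ne_zero.2 one_ne_zero) hy₂
  have hx₁e : x₁ = z₁ / w₁ := ecflat_x_eq hy₁
  have hx₂e : x₂ = z₂ / w₂ := ecflat_x_eq hy₂
  have hy₁e : y₁ = -1 / w₁ := ecflat_y_eq hy₁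
  have hy₂e : y₂ = -1 / w₂ := ecflat_y_eq hy₂
  have hPhi : ecflat_Phi W.a₁ W.a₂ W.a₃ W.a₄ W.a₆ z₁ w₁ z₂ w₂
      = -z₃ / (1 - W.a₁ * z₃ - W.a₃ * w₃) := rfl
  rw [hPhi]
  -- the cross relation `z₂ w₁ - z₁ w₂ = n (z₂ - z₁)`
  have hcross : z₂ * w₁ - z₁ * w₂ = n * (z₂ - z₁) := by
    rw [hch.line₁, hch.line₂]; ring
  by_cases hxy : x₁ = x₂ ∧ y₁ = W.toAffine.negY x₂ y₂
  · -- vertical line: the sum is zero
    rw [Affine.Point.add_of_Y_eq hxy.1 hxy.2, ecflat_z_zero]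
    have hzw : z₂ * w₁ - z₁ * w₂ = 0 := by
      have := hxy.1
      rw [hx₁e, hx₂e] at this
      field_simp at this
      linear_combination -this
    have hn0 : n = 0 := by
      by_cases hzz : z₁ = z₂
      · -- then the two points coincide and the tangent is vertical
        have hww : w₁ = w₂ := by rw [hch.line₁, hch.line₂, hzz]
        have hyy : y₁ = y₂ := by rw [hy₁e, hy₂e, hww]
        have hneg := hxy.2
        rw [← hyy, ← hxy.1] at hneg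
        simp only [Affine.negY] at hneg
        -- `-2 + a₁ z₁ + a₃ w₁ = 0`
        have h2 : -2 + W.a₁ * z₁ + W.a₃ * w₁ = 0 := by
          rw [hz₁, hw₁]
          field_simp
          linear_combination -hneg
        have hT := ecflat_tangent_id W.a₁ W.a₂ W.a₃ W.a₄ W.a₆ z₁ w₁
        have hlD : l * (1 - ecflat_M W.a₁ W.a₂ W.a₃ W.a₄ W.a₆ w₁ z₂ w₂)
            = ecflat_S W.a₁ W.a₂ W.a₄ z₁ w₁ z₂ := by
          rw [hl, ecflat_lam]; exact div_mul_cancel₀ _ hD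
        rw [← hzz, ← hww] at hlD
        have hnD : n * (1 - ecflat_M W.a₁ W.a₂ W.a₃ W.a₄ W.a₆ w₁ z₁ w₁) = 0 := by
          have hn' : n = w₁ - l * z₁ := rfl
          rw [hn']
          linear_combination hT - z₁ * hlD + 3 * e₁ + w₁ * h2
        rcases mul_eq_zero.1 hnD with h | h
        · exact h
        · exact absurd h hD'
      · have : n * (z₂ - z₁) = 0 := by rw [← hcross, hzw]
        rcases mul_eq_zero.1 this with h | h
        · exact h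
        · exact absurd (sub_eq_zero.1 h).symm hzz
    rw [hch.z₃_eq_zero hn0 hz₁0 hz₂0]
    simp
  · -- chord or tangent
    have hlD : l * (1 - ecflat_M W.a₁ W.a₂ W.a₃ W.a₄ W.a₆ w₁ z₂ w₂)
        = ecflat_S W.a₁ W.a₂ W.a₄ z₁ w₁ z₂ := by
      rw [hl, ecflat_lam]; exact div_mul_cancel₀ _ hD
    have hn' : n = w₁ - l * z₁ := rfl
    -- in the tangent case: `n (1 - M) = w₁ (-2 + a₁ z₁ + a₃ w₁)`
    have htan : x₁ = x₂ → y₁ = y₂ ∧ z₁ = z₂ ∧ w₁ = w₂ ∧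
        n * (1 - ecflat_M W.a₁ W.a₂ W.a₃ W.a₄ W.a₆ w₁ z₁ w₁)
          = w₁ * (-2 + W.a₁ * z₁ + W.a₃ * w₁) ∧
        l * (1 - ecflat_M W.a₁ W.a₂ W.a₃ W.a₄ W.a₆ w₁ z₁ w₁)
          = ecflat_S W.a₁ W.a₂ W.a₄ z₁ w₁ z₁ := by
      intro hx
      have hyy : y₁ = y₂ := Affine.Y_eq_of_Y_ne h₁.1 h₂.1 hx (fun h => hxy ⟨hx, h⟩)
      have hzz : z₁ = z₂ := by rw [hz₁, hz₂, hx, hyy]
      have hww : w₁ = w₂ := by rw [hw₁, hw₂, hyy]
      have hT := ecflat_tangent_id W.a₁ W.a₂ W.a₃ W.a₄ W.a₆ z₁ w₁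
      have hlD' := hlD
      rw [← hzz, ← hww] at hlD'
      refine ⟨hyy, hzz, hww, ?_, hlD'⟩
      rw [hn']
      linear_combination hT - z₁ * hlD' + 3 * e₁
    have hden : x₁ = x₂ → -2 + W.a₁ * z₁ + W.a₃ * w₁ ≠ 0 := by
      intro hx h3
      obtain ⟨hyy, -, -, -, -⟩ := htan hx
      apply hxy
      refine ⟨hx, ?_⟩
      rw [← hyy, ← hx]
      simp only [Affine.negY]
      rw [hz₁, hw₁] at h3
      field_simp at h3
      linear_combination -h3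
    have hn0 : n ≠ 0 := by
      intro hn0
      by_cases hx : x₁ = x₂
      · obtain ⟨-, -, -, hnD, -⟩ := htan hx
        rw [hn0, zero_mul] at hnD
        rcases mul_eq_zero.1 hnD.symm with h | h
        · exact hw₁0 h
        · exact hden hx h
      · apply hx
        have hzw : z₂ * w₁ - z₁ * w₂ = 0 := by rw [hcross, hn0, zero_mul]
        rw [hx₁e, hx₂e]
        field_simp
        linear_combination -hzw
    refine ecflat_z_add_aux h₁ h₂ hy₁ hy₂ hxy hch hn0 ?_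
    -- the slope
    by_cases hx : x₁ = x₂
    · obtain ⟨hyy, hzz, hww, hnD, hlD'⟩ := htan hx
      have hne : y₁ ≠ W.toAffine.negY x₂ y₂ := fun h => hxy ⟨hx, h⟩
      rw [Affine.slope_of_Y_ne hx hne]
      have hne' : y₁ - W.toAffine.negY x₁ y₁ ≠ 0 := by
        rw [← hx, ← hyy] at hne
        exact sub_ne_zero.2 hne
      rw [div_eq_div_iff hne' hn0]
      have key : ((3 * x₁ ^ 2 + 2 * W.toAffine.a₂ * x₁ + W.toAffine.a₄ - W.toAffine.a₁ * y₁) * n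
          - l * (y₁ - W.toAffine.negY x₁ y₁))
          * (1 - ecflat_M W.a₁ W.a₂ W.a₃ W.a₄ W.a₆ w₁ z₁ w₁) = 0 := by
        have e1 : (3 * x₁ ^ 2 + 2 * W.a₂ * x₁ + W.a₄ - W.a₁ * y₁) * w₁ ^ 2
            = ecflat_S W.a₁ W.a₂ W.a₄ z₁ w₁ z₁ := by
          simp only [ecflat_S]
          rw [hz₁, hw₁]
          field_simp
          ring
        have e2 : (y₁ - W.toAffine.negY x₁ y₁) * w₁ = -2 + W.a₁ * z₁ + W.a₃ * w₁ := by
          simp only [Affine.negY]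
          rw [hz₁, hw₁]
          field_simp
          ring
        have hw₁sq : w₁ ^ 2 ≠ 0 := pow_ne_zero 2 hw₁0
        apply mul_left_cancel₀ hw₁sq
        rw [mul_zero]
        linear_combination (n * (1 - ecflat_M W.a₁ W.a₂ W.a₃ W.a₄ W.a₆ w₁ z₁ w₁)) * e1
          + ecflat_S W.a₁ W.a₂ W.a₄ z₁ w₁ z₁ * hnD
          - (y₁ - W.toAffine.negY x₁ y₁) * w₁ ^ 2 * hlD'
          - ecflat_S W.a₁ W.a₂ W.a₄ z₁ w₁ z₁ * w₁ * e2
      rcases mul_eq_zero.1 key with h | h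
      · exact sub_eq_zero.1 h
      · exact absurd h hD'
    · rw [Affine.slope_of_X_ne hx]
      have hx' : x₁ - x₂ ≠ 0 := sub_ne_zero.2 hx
      rw [div_eq_div_iff hx' hn0]
      have e1 : w₁ - w₂ = l * (z₁ - z₂) := by rw [hch.line₁, hch.line₂]; ring
      have e2 : (y₁ - y₂) * (w₁ * w₂) = w₁ - w₂ := by
        rw [hy₁e, hy₂e]
        field_simp
        ring
      have e3 : (x₁ - x₂) * (w₁ * w₂) = z₁ * w₂ - z₂ * w₁ := by
        rw [hx₁e, hx₂e]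
        field_simp
      have hww : w₁ * w₂ ≠ 0 := mul_ne_zero hw₁0 hw₂0
      apply mul_right_cancel₀ hww
      linear_combination n * e2 - l * e3 + n * e1 + l * hcross

end Fermat.Agent.EC
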