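import Mathlib
import Fermat.Agent.EC.Flat.Sum
import Fermat.Agent.EC.Flat.ApprPhi

/-!
# E-side flatness, part 5: the chart `z = -x/y` on the kernel of reduction

`E` a Weierstrass curve over a field `K` with coefficients in a valuation subring `A`.
`ecflat_InKer A P` : `P = 0` or `x(P) ∉ A`.

* `ecflat_coords_of_not_mem` : for such an affine point, `x, y ≠ 0` and `z, w ∈ 𝔪`;
* `ecflat_z_injOn` : `z` is injective on the kernel;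
* `ecflat_add_approx` : the addition of the kernel is uniformly approximable by polynomials in
  the `z`-coordinates (the shape asked for by `W1.KernelChart.add_approx`).
-/

set_option autoImplicit false

namespace Fermat.Agent.EC

open WeierstrassCurve

variable {K : Type*} [Field K] (A : ValuationSubring K) {E : WeierstrassCurve K}

/-- the kernel predicate: `P = 0` or `x(P) ∉ A` -/
def ecflat_InKer : E.toAffine.Point → Prop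
  | .zero => True
  | .some x _ _ => x ∉ A

theorem ecflat_inKer_zero : ecflat_InKer A (0 : E.toAffine.Point) := trivial

theorem ecflat_inKer_some {x y : K} (h : E.toAffine.Nonsingular x y) :
    ecflat_InKer A (Affine.Point.some x y h) ↔ x ∉ A := Iff.rfl

variable {A}

theorem ecflat_inv_mem_nonunits {x : K} (hx : x ∉ A) : x ≠ 0 ∧ x⁻¹ ∈ A.nonunits := by
  refine ⟨fun h0 => hx (h0 ▸ A.zero_mem), ?_⟩
  rw [ValuationSubring.inv_mem_nonunits_iff]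
  exact Or.inr hx

/-- the coordinates of an affine point of the kernel -/
theorem ecflat_coords_of_not_mem (h₁ : E.a₁ ∈ A) (h₂ : E.a₂ ∈ A) (h₃ : E.a₃ ∈ A)
    (h₄ : E.a₄ ∈ A) (h₆ : E.a₆ ∈ A) {x y : K} (h : E.toAffine.Equation x y) (hx : x ∉ A) :
    x ≠ 0 ∧ y ≠ 0 ∧ -x / y ∈ A.nonunits ∧ -1 / y ∈ A.nonunits := by
  obtain ⟨hx0, hu⟩ := ecflat_inv_mem_nonunits hx
  have huA : x⁻¹ ∈ A := A.nonunits_subset hu
  have heq := (Affine.equation_iff _ _).1 h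
  have ht : y / x ∉ A := by
    intro ht
    apply hx
    have e : x = (y / x) ^ 2 + E.a₁ * (y / x) + E.a₃ * (y / x) * x⁻¹ - E.a₂ - E.a₄ * x⁻¹
        - E.a₆ * x⁻¹ ^ 2 := by
      field_simp
      linear_combination -heq
    rw [e]
    exact sub_mem (sub_mem (sub_mem (add_mem (add_mem (pow_mem ht 2) (mul_mem h₁ ht))
      (mul_mem (mul_mem h₃ ht) huA)) h₂) (mul_mem h₄ huA)) (mul_mem h₆ (pow_mem huA 2))
  obtain ⟨ht0, htu⟩ := ecflat_inv_mem_nonunits ht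
  have hy0 : y ≠ 0 := fun h0 => ht0 (by rw [h0, zero_div])
  have e1 : -x / y = -(y / x)⁻¹ := by field_simp
  have hz : -x / y ∈ A.nonunits := by
    rw [e1]; exact neg_mem htu
  refine ⟨hx0, hy0, hz, ?_⟩
  have e2 : -1 / y = (-x / y) * x⁻¹ := by field_simp
  rw [e2]
  exact ecflat_mul_mem_nonunits hz huA

variable (A) in
/-- `z` of a point of the kernel is in `𝔪` -/
theorem ecflat_z_mem_nonunits (h₁ : E.a₁ ∈ A) (h₂ : E.a₂ ∈ A) (h₃ : E.a₃ ∈ A)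
    (h₄ : E.a₄ ∈ A) (h₆ : E.a₆ ∈ A) {P : E.toAffine.Point} (hP : ecflat_InKer A P) :
    ecflat_z P ∈ A.nonunits := by
  rcases P with _ | ⟨x, y, h⟩
  · show (0 : K) ∈ A.nonunits
    rw [ValuationSubring.mem_nonunits_iff]; simp
  · exact (ecflat_coords_of_not_mem h₁ h₂ h₃ h₄ h₆ h.1 hP).2.2.1

variable (A) in
/-- `w` of a point of the kernel is in `𝔪` -/
theorem ecflat_w_mem_nonunits (h₁ : E.a₁ ∈ A) (h₂ : E.a₂ ∈ A) (h₃ : E.a₃ ∈ A)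
    (h₄ : E.a₄ ∈ A) (h₆ : E.a₆ ∈ A) {P : E.toAffine.Point} (hP : ecflat_InKer A P) :
    ecflat_w P ∈ A.nonunits := by
  rcases P with _ | ⟨x, y, h⟩
  · show (0 : K) ∈ A.nonunits
    rw [ValuationSubring.mem_nonunits_iff]; simp
  · exact (ecflat_coords_of_not_mem h₁ h₂ h₃ h₄ h₆ h.1 hP).2.2.2

variable (A) in
/-- the equation `w = f(z, w)` on the kernel (the origin included) -/
theorem ecflat_w_eq (h₁ : E.a₁ ∈ A) (h₂ : E.a₂ ∈ A) (h₃ : E.a₃ ∈ A)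
    (h₄ : E.a₄ ∈ A) (h₆ : E.a₆ ∈ A) {P : E.toAffine.Point} (hP : ecflat_InKer A P) :
    ecflat_w P = ecflat_f E.a₁ E.a₂ E.a₃ E.a₄ E.a₆ (ecflat_z P) (ecflat_w P) := by
  rcases P with _ | ⟨x, y, h⟩
  · show (0 : K) = ecflat_f E.a₁ E.a₂ E.a₃ E.a₄ E.a₆ 0 0
    simp [ecflat_f]
  · exact ecflat_eq_zw h.1 (ecflat_coords_of_not_mem h₁ h₂ h₃ h₄ h₆ h.1 hP).2.1

/-- `M ∈ 𝔪` for arguments in `𝔪` -/
theorem ecflat_M_mem_nonunits {a₁ a₂ a₃ a₄ a₆ : K} (h₁ : a₁ ∈ A) (h₂ : a₂ ∈ A) (h₃ : a₃ ∈ A)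
    (h₄ : a₄ ∈ A) (h₆ : a₆ ∈ A) {w₁ z₂ w₂ : K} (hw₁ : w₁ ∈ A.nonunits)
    (hz₂ : z₂ ∈ A.nonunits) (hw₂ : w₂ ∈ A.nonunits) :
    ecflat_M a₁ a₂ a₃ a₄ a₆ w₁ z₂ w₂ ∈ A.nonunits := by
  have hw₁A := A.nonunits_subset hw₁
  have hz₂A := A.nonunits_subset hz₂
  have hw₂A := A.nonunits_subset hw₂
  have e : ecflat_M a₁ a₂ a₃ a₄ a₆ w₁ z₂ w₂
      = z₂ * (a₁ + a₂ * z₂ + a₄ * (w₁ + w₂)) + w₁ * (a₃ + a₆ * (w₁ + w₂))
        + w₂ * (a₃ + a₆ * w₂) := by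
    simp only [ecflat_M]; ring
  rw [e]
  exact add_mem (add_mem
    (ecflat_mul_mem_nonunits hz₂ (add_mem (add_mem h₁ (mul_mem h₂ hz₂A))
      (mul_mem h₄ (add_mem hw₁A hw₂A))))
    (ecflat_mul_mem_nonunits hw₁ (add_mem h₃ (mul_mem h₆ (add_mem hw₁A hw₂A)))))
    (ecflat_mul_mem_nonunits hw₂ (add_mem h₃ (mul_mem h₆ hw₂A)))

theorem ecflat_one_sub_ne_zero {m : K} (hm : m ∈ A.nonunits) : 1 - m ≠ 0 := by
  have hv : A.valuation (1 - m) = 1 := by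
    have := Valuation.map_one_add_of_lt A.valuation
      (show A.valuation (-m) < 1 by rw [Valuation.map_neg]; exact A.mem_nonunits_iff.1 hm)
    rwa [← sub_eq_add_neg] at this
  intro h0
  rw [h0, map_zero] at hv
  exact zero_ne_one hv

variable (A) in
/-- **`z` is injective on the kernel of reduction.** -/
theorem ecflat_z_injOn (h₁ : E.a₁ ∈ A) (h₂ : E.a₂ ∈ A) (h₃ : E.a₃ ∈ A)
    (h₄ : E.a₄ ∈ A) (h₆ : E.a₆ ∈ A) {P Q : E.toAffine.Point} (hP : ecflat_InKer A P)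
    (hQ : ecflat_InKer A Q) (hz : ecflat_z P = ecflat_z Q) : P = Q := by
  rcases P with _ | ⟨x₁, y₁, hp⟩
  · rcases Q with _ | ⟨x₂, y₂, hq⟩
    · rfl
    · exfalso
      obtain ⟨hx0, hy0, -, -⟩ := ecflat_coords_of_not_mem h₁ h₂ h₃ h₄ h₆ hq.1 hQ
      have : (-x₂ / y₂ : K) = 0 := hz.symm
      exact div_ne_zero (neg_ne_zero.2 hx0) hy0 this
  · rcases Q with _ | ⟨x₂, y₂, hq⟩
    · exfalso
      obtain ⟨hx0, hy0, -, -⟩ := ecflat_coords_of_not_mem h₁ h₂ h₃ h₄ h₆ hp.1 hP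
      have : (-x₁ / y₁ : K) = 0 := hz
      exact div_ne_zero (neg_ne_zero.2 hx0) hy0 this
    · obtain ⟨hx₁0, hy₁0, hz₁, hw₁⟩ := ecflat_coords_of_not_mem h₁ h₂ h₃ h₄ h₆ hp.1 hP
      obtain ⟨hx₂0, hy₂0, hz₂, hw₂⟩ := ecflat_coords_of_not_mem h₁ h₂ h₃ h₄ h₆ hq.1 hQ
      have hz' : (-x₁ / y₁ : K) = -x₂ / y₂ := hz
      have e₁ := ecflat_eq_zw hp.1 hy₁0
      have e₂ := ecflat_eq_zw hq.1 hy₂0
      have hch := ecflat_chord E.a₁ E.a₂ E.a₃ E.a₄ E.a₆ _ _ _ _ e₁ e₂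
      rw [hz', sub_self, zero_mul] at hch
      have hD := ecflat_one_sub_ne_zero (ecflat_M_mem_nonunits h₁ h₂ h₃ h₄ h₆ hw₁ hz₂ hw₂)
      have hw : (-1 / y₂ : K) = -1 / y₁ := by
        rcases mul_eq_zero.1 hch with h | h
        · exact sub_eq_zero.1 h
        · exact absurd h hD
      have hy : y₁ = y₂ := by
        rw [ecflat_y_eq hy₁0, ecflat_y_eq hy₂0, hw]
      have hx : x₁ = x₂ := by
        rw [ecflat_x_eq (x := x₁) hy₁0, ecflat_x_eq (x := x₂) hy₂0, hw, hz']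
      subst hx; subst hy; rfl

/-! ### The addition is approximable -/

section Approx

variable [DecidableEq K]

/-- the index type: pairs of points of the kernel with `z`-coordinates in `ϖ A` -/
def EcflatPairs (A : ValuationSubring K) (E : WeierstrassCurve K) (ϖ : K) : Type _ :=
  {t : E.toAffine.Point × E.toAffine.Point //
    ecflat_InKer A t.1 ∧ ecflat_InKer A t.2 ∧
      (∃ a ∈ A, ecflat_z t.1 = ϖ * a) ∧ (∃ a ∈ A, ecflat_z t.2 = ϖ * a)}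

variable (A) in
/-- **The addition of the kernel of reduction is approximable.** -/
theorem ecflat_add_approx (h₁ : E.a₁ ∈ A) (h₂ : E.a₂ ∈ A) (h₃ : E.a₃ ∈ A)
    (h₄ : E.a₄ ∈ A) (h₆ : E.a₆ ∈ A) {ϖ : K} (hϖ : ϖ ∈ A.nonunits) (n : ℕ) :
    ∃ F : MvPolynomial (Fin 1 ⊕ Fin 1) K, (∀ m, F.coeff m ∈ A) ∧
      ∀ P Q : E.toAffine.Point, ecflat_InKer A P → ecflat_InKer A Q →
        (∃ a ∈ A, ecflat_z P = ϖ * a) → (∃ a ∈ A, ecflat_z Q = ϖ * a) →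
        ∃ a ∈ A, ecflat_z (P + Q)
          - MvPolynomial.eval (Sum.elim (fun _ => ecflat_z P) (fun _ => ecflat_z Q)) F
            = ϖ ^ n * a := by
  classical
  let ι := EcflatPairs A E ϖ
  let ev : ι → (Fin 1 ⊕ Fin 1) → K :=
    fun t => Sum.elim (fun _ => ecflat_z t.1.1) (fun _ => ecflat_z t.1.2)
  have hev : ∀ t i, ev t i ∈ A := by
    intro t i
    rcases i with i | i
    · exact A.nonunits_subset (ecflat_z_mem_nonunits A h₁ h₂ h₃ h₄ h₆ t.2.1)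
    · exact A.nonunits_subset (ecflat_z_mem_nonunits A h₁ h₂ h₃ h₄ h₆ t.2.2.1)
  have hu : EcflatAppr0 A ϖ ev (fun t => ecflat_z t.1.1) :=
    (ecflatAppr0_var (ev := ev) (Sum.inl 0) (fun t => t.2.2.2.1)).congr fun t => rfl
  have hv : EcflatAppr0 A ϖ ev (fun t => ecflat_z t.1.2) :=
    (ecflatAppr0_var (ev := ev) (Sum.inr 0) (fun t => t.2.2.2.2)).congr fun t => rfl
  have hw₁ : EcflatAppr0 A ϖ ev (fun t => ecflat_w t.1.1) :=
    ecflat_w_appr0 hev hϖ h₁ h₂ h₃ h₄ h₆ hu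
      (fun t => ecflat_w_mem_nonunits A h₁ h₂ h₃ h₄ h₆ t.2.1)
      (fun t => ecflat_w_eq A h₁ h₂ h₃ h₄ h₆ t.2.1)
  have hw₂ : EcflatAppr0 A ϖ ev (fun t => ecflat_w t.1.2) :=
    ecflat_w_appr0 hev hϖ h₁ h₂ h₃ h₄ h₆ hv
      (fun t => ecflat_w_mem_nonunits A h₁ h₂ h₃ h₄ h₆ t.2.2.1)
      (fun t => ecflat_w_eq A h₁ h₂ h₃ h₄ h₆ t.2.2.1)
  obtain ⟨-, -, -, -, hPhi, hD, hc₃, hU⟩ :=
    ecflat_chord_appr0 hev hϖ h₁ h₂ h₃ h₄ h₆ hu hw₁ hv hw₂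
  obtain ⟨F, hF⟩ := hPhi.1 n
  refine ⟨MvPolynomial.map A.subtype F, fun m => ?_, fun P Q hP hQ hzP hzQ => ?_⟩
  · rw [MvPolynomial.coeff_map]
    exact (F.coeff m).2
  · obtain ⟨a, ha, ea⟩ := hF ⟨(P, Q), hP, hQ, hzP, hzQ⟩
    refine ⟨a, ha, ?_⟩
    rw [MvPolynomial.eval_map]
    have hsum : ecflat_z (P + Q) = ecflat_Phi E.a₁ E.a₂ E.a₃ E.a₄ E.a₆
        (ecflat_z P) (ecflat_w P) (ecflat_z Q) (ecflat_w Q) := by
      have hDt : 1 - ecflat_M E.a₁ E.a₂ E.a₃ E.a₄ E.a₆ (ecflat_w P) (ecflat_z Q) (ecflat_w Q)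
          ≠ 0 := hD ⟨(P, Q), hP, hQ, hzP, hzQ⟩
      have hDt' : 1 - ecflat_M E.a₁ E.a₂ E.a₃ E.a₄ E.a₆ (ecflat_w P) (ecflat_z P) (ecflat_w P)
          ≠ 0 := hD ⟨(P, P), hP, hP, hzP, hzP⟩
      have hct : ecflat_c₃ E.a₂ E.a₄ E.a₆ (ecflat_lam E.a₁ E.a₂ E.a₃ E.a₄ E.a₆
          (ecflat_z P) (ecflat_w P) (ecflat_z Q) (ecflat_w Q)) ≠ 0 :=
        hc₃ ⟨(P, Q), hP, hQ, hzP, hzQ⟩
      have hUt : 1 - E.a₁ * ecflat_z₃ E.a₁ E.a₂ E.a₃ E.a₄ E.a₆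
            (ecflat_z P) (ecflat_w P) (ecflat_z Q) (ecflat_w Q)
          - E.a₃ * ecflat_w₃ E.a₁ E.a₂ E.a₃ E.a₄ E.a₆
            (ecflat_z P) (ecflat_w P) (ecflat_z Q) (ecflat_w Q) ≠ 0 :=
        hU ⟨(P, Q), hP, hQ, hzP, hzQ⟩
      have eP := ecflat_w_eq A h₁ h₂ h₃ h₄ h₆ hP
      have eQ := ecflat_w_eq A h₁ h₂ h₃ h₄ h₆ hQ
      have hch := ecflat_chord_canon E.a₁ E.a₂ E.a₃ E.a₄ E.a₆ _ _ _ _ eP eQ hDt hct
      rcases P with _ | ⟨x₁, y₁, hp⟩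
      · have hz0 : (Affine.Point.zero : E.toAffine.Point) + Q = Q := zero_add Q
        rw [hz0]
        exact (EcflatChord.phi_of_left_zero hch hUt).symm
      · rcases Q with _ | ⟨x₂, y₂, hq⟩
        · have hz0 : Affine.Point.some x₁ y₁ hp + (Affine.Point.zero : E.toAffine.Point)
              = Affine.Point.some x₁ y₁ hp := add_zero _
          rw [hz0]
          exact (EcflatChord.phi_of_right_zero hch hUt).symm
        · obtain ⟨hx₁0, hy₁0, -, -⟩ := ecflat_coords_of_not_mem h₁ h₂ h₃ h₄ h₆ hp.1 hP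
          obtain ⟨hx₂0, hy₂0, -, -⟩ := ecflat_coords_of_not_mem h₁ h₂ h₃ h₄ h₆ hq.1 hQ
          exact ecflat_z_add hp hq hx₁0 hx₂0 hy₁0 hy₂0 hDt hDt' hct
    rw [hsum]
    exact ea

end Approx

end Fermat.Agent.EC
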