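import Mathlib
import Fermat.Agent.EC.Flat.Ker

/-!
# E-side flatness, part 6: lifting points of the reduction to inertia-fixed points (algebra)

`K` algebraically closed, `A` a valuation subring, `E` a Weierstrass curve over `K` with
coefficients in `A`, `(x, y)` an integral point of `E`.

* `ecflat_exists_Y` : for `s ∈ A`, `s ≡ x`, there is a point `(s, y₁)` with `y₁ ≡ y`;
* `ecflat_exists_X` : for `s ∈ A`, `s ≡ y`, there is a point `(x₁, s)` with `x₁ ≡ x`;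
* `ecflat_fix_Y`, `ecflat_fix_X` : if `σ` fixes the coefficients and `s`, is congruent to the
  identity modulo `𝔪` on `A`, and the corresponding partial derivative is a unit, then `σ` fixes
  `y₁` (resp. `x₁`).
-/

set_option autoImplicit false

namespace Fermat.Agent.EC

open WeierstrassCurve Polynomial

variable {K : Type*} [Field K] {A : ValuationSubring K} {E : WeierstrassCurve K}

theorem ecflat_prime {a b : K} (ha : a ∈ A) (hb : b ∈ A) (h : a * b ∈ A.nonunits) :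
    a ∈ A.nonunits ∨ b ∈ A.nonunits := by
  rw [ValuationSubring.mem_nonunits_iff, map_mul] at h
  have h1 := (A.valuation_le_one_iff a).2 ha
  have h2 := (A.valuation_le_one_iff b).2 hb
  by_contra hcon
  rw [not_or, ValuationSubring.mem_nonunits_iff, ValuationSubring.mem_nonunits_iff,
    not_lt, not_lt] at hcon
  have e1 : A.valuation a = 1 := le_antisymm h1 hcon.1
  have e2 : A.valuation b = 1 := le_antisymm h2 hcon.2
  rw [e1, e2] at h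
  simp at h

/-- integral `x` forces integral `y` -/
theorem ecflat_y_mem (h₁ : E.a₁ ∈ A) (h₂ : E.a₂ ∈ A) (h₃ : E.a₃ ∈ A)
    (h₄ : E.a₄ ∈ A) (h₆ : E.a₆ ∈ A) {x y : K} (h : E.toAffine.Equation x y) (hx : x ∈ A) :
    y ∈ A := by
  by_contra hy
  obtain ⟨hy0, hv⟩ := ecflat_inv_mem_nonunits hy
  have heq := (Affine.equation_iff _ _).1 h
  have key : (1 : K) = y⁻¹ * ((x ^ 3 + E.a₂ * x ^ 2 + E.a₄ * x + E.a₆) * y⁻¹
      - E.a₁ * x - E.a₃) := by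
    field_simp
    linear_combination heq
  have hmem : y⁻¹ * ((x ^ 3 + E.a₂ * x ^ 2 + E.a₄ * x + E.a₆) * y⁻¹
      - E.a₁ * x - E.a₃) ∈ A.nonunits := by
    refine ecflat_mul_mem_nonunits hv ?_
    exact sub_mem (sub_mem (mul_mem (add_mem (add_mem (add_mem (pow_mem hx 3)
      (mul_mem h₂ (pow_mem hx 2))) (mul_mem h₄ hx)) h₆) (A.nonunits_subset hv))
      (mul_mem h₁ hx)) h₃
  rw [← key] at hmem
  have : A.valuation (1 : K) < 1 := A.mem_nonunits_iff.1 hmem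
  rw [map_one] at this
  exact lt_irrefl _ this

/-- integral `y` forces integral `x` -/
theorem ecflat_x_mem (h₁ : E.a₁ ∈ A) (h₂ : E.a₂ ∈ A) (h₃ : E.a₃ ∈ A)
    (h₄ : E.a₄ ∈ A) (h₆ : E.a₆ ∈ A) {x y : K} (h : E.toAffine.Equation x y) (hy : y ∈ A) :
    x ∈ A := by
  by_contra hx
  obtain ⟨-, hy0, -, hw⟩ := ecflat_coords_of_not_mem h₁ h₂ h₃ h₄ h₆ h hx
  have : (-1 / y) * y ∈ A.nonunits := ecflat_mul_mem_nonunits hw hy
  have e : (-1 / y) * y = -1 := by field_simp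
  rw [e] at this
  have h1 : A.valuation (-1 : K) < 1 := A.mem_nonunits_iff.1 this
  rw [Valuation.map_neg, map_one] at h1
  exact lt_irrefl _ h1

theorem ecflat_unit_add_ne_zero {u m : K} (hu : u ∉ A.nonunits) (hm : m ∈ A.nonunits) :
    u + m ≠ 0 := by
  intro h0
  apply hu
  have : u = -m := by linear_combination h0
  rw [this]
  exact neg_mem hm

section Exists

variable [IsAlgClosed K]

/-- a monic quadratic has a root -/
theorem ecflat_exists_root_quadratic (b c : K) : ∃ r : K, r ^ 2 + b * r + c = 0 := by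
  have hdeg : (C 1 * X ^ 2 + C b * X + C c : K[X]).degree = 2 :=
    degree_quadratic one_ne_zero
  obtain ⟨r, hr⟩ := IsAlgClosed.exists_root (C 1 * X ^ 2 + C b * X + C c : K[X])
    (by rw [hdeg]; norm_num)
  refine ⟨r, ?_⟩
  have : (C 1 * X ^ 2 + C b * X + C c : K[X]).eval r = r ^ 2 + b * r + c := by
    simp
  rw [← this]
  exact hr

/-- a monic cubic has a root -/
theorem ecflat_exists_root_cubic (a b c : K) : ∃ r : K, r ^ 3 + a * r ^ 2 + b * r + c = 0 := by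
  have hdeg : (C 1 * X ^ 3 + C a * X ^ 2 + C b * X + C c : K[X]).degree = 3 :=
    degree_cubic one_ne_zero
  obtain ⟨r, hr⟩ := IsAlgClosed.exists_root (C 1 * X ^ 3 + C a * X ^ 2 + C b * X + C c : K[X])
    (by rw [hdeg]; norm_num)
  refine ⟨r, ?_⟩
  have : (C 1 * X ^ 3 + C a * X ^ 2 + C b * X + C c : K[X]).eval r
      = r ^ 3 + a * r ^ 2 + b * r + c := by
    simp
  rw [← this]
  exact hr

/-- **Lifting in the `y`-direction.** -/
theorem ecflat_exists_Y (h₁ : E.a₁ ∈ A) (h₂ : E.a₂ ∈ A) (h₃ : E.a₃ ∈ A)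
    (h₄ : E.a₄ ∈ A) (h₆ : E.a₆ ∈ A) {x y : K} (h : E.toAffine.Equation x y) (hx : x ∈ A)
    {s : K} (hs : s ∈ A) (hsx : s - x ∈ A.nonunits) :
    ∃ y₁ : K, y₁ ∈ A ∧ E.toAffine.Equation s y₁ ∧ y₁ - y ∈ A.nonunits := by
  have hy : y ∈ A := ecflat_y_mem h₁ h₂ h₃ h₄ h₆ h hx
  have heq := (Affine.equation_iff _ _).1 h
  obtain ⟨r, hr⟩ := ecflat_exists_root_quadratic (E.a₁ * s + E.a₃)
    (-(s ^ 3 + E.a₂ * s ^ 2 + E.a₄ * s + E.a₆))
  set r' := -(E.a₁ * s + E.a₃) - r with hr'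
  have hEr : E.toAffine.Equation s r := by
    rw [Affine.equation_iff]; linear_combination hr
  have hEr' : E.toAffine.Equation s r' := by
    rw [Affine.equation_iff, hr']; linear_combination hr
  have hrA : r ∈ A := ecflat_y_mem h₁ h₂ h₃ h₄ h₆ hEr hs
  have hr'A : r' ∈ A := ecflat_y_mem h₁ h₂ h₃ h₄ h₆ hEr' hs
  -- `q(y) = (y - r)(y - r') ∈ 𝔪`
  have hq : (y - r) * (y - r') = (x - s) * (x ^ 2 + x * s + s ^ 2 + E.a₂ * (x + s) + E.a₄
      - E.a₁ * y) := by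
    rw [hr']; linear_combination heq - hr
  have hqm : (y - r) * (y - r') ∈ A.nonunits := by
    rw [hq]
    have : x - s ∈ A.nonunits := by
      have := neg_mem hsx
      rwa [neg_sub] at this
    exact ecflat_mul_mem_nonunits this (sub_mem (add_mem (add_mem (add_mem (add_mem (pow_mem hx 2)
      (mul_mem hx hs)) (pow_mem hs 2)) (mul_mem h₂ (add_mem hx hs))) h₄) (mul_mem h₁ hy))
  rcases ecflat_prime (sub_mem hy hrA) (sub_mem hy hr'A) hqm with h' | h'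
  · refine ⟨r, hrA, hEr, ?_⟩
    have := neg_mem h'
    rwa [neg_sub] at this
  · refine ⟨r', hr'A, hEr', ?_⟩
    have := neg_mem h'
    rwa [neg_sub] at this

/-- **Lifting in the `x`-direction.** -/
theorem ecflat_exists_X (h₁ : E.a₁ ∈ A) (h₂ : E.a₂ ∈ A) (h₃ : E.a₃ ∈ A)
    (h₄ : E.a₄ ∈ A) (h₆ : E.a₆ ∈ A) {x y : K} (h : E.toAffine.Equation x y) (hx : x ∈ A)
    {s : K} (hs : s ∈ A) (hsy : s - y ∈ A.nonunits) :
    ∃ x₁ : K, x₁ ∈ A ∧ E.toAffine.Equation x₁ s ∧ x₁ - x ∈ A.nonunits := by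
  have hy : y ∈ A := ecflat_y_mem h₁ h₂ h₃ h₄ h₆ h hx
  have heq := (Affine.equation_iff _ _).1 h
  obtain ⟨r₁, hr₁⟩ := ecflat_exists_root_cubic E.a₂ (E.a₄ - E.a₁ * s)
    (E.a₆ - s ^ 2 - E.a₃ * s)
  obtain ⟨r₂, hr₂⟩ := ecflat_exists_root_quadratic (E.a₂ + r₁)
    (r₁ ^ 2 + E.a₂ * r₁ + E.a₄ - E.a₁ * s)
  set r₃ := -(E.a₂ + r₁) - r₂ with hr₃
  have hc : ∀ t : K, t ^ 3 + E.a₂ * t ^ 2 + (E.a₄ - E.a₁ * s) * t + (E.a₆ - s ^ 2 - E.a₃ * s)
      = (t - r₁) * ((t - r₂) * (t - r₃)) := by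
    intro t
    rw [hr₃]
    linear_combination hr₁ + (t - r₁) * hr₂
  have hE : ∀ t : K, t ^ 3 + E.a₂ * t ^ 2 + (E.a₄ - E.a₁ * s) * t + (E.a₆ - s ^ 2 - E.a₃ * s) = 0 →
      E.toAffine.Equation t s := by
    intro t ht
    rw [Affine.equation_iff]; linear_combination -ht
  have hE₁ : E.toAffine.Equation r₁ s := hE r₁ hr₁
  have hE₂ : E.toAffine.Equation r₂ s := hE r₂ (by rw [hc]; ring)
  have hE₃ : E.toAffine.Equation r₃ s := hE r₃ (by rw [hc]; ring)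
  have hr₁A : r₁ ∈ A := ecflat_x_mem h₁ h₂ h₃ h₄ h₆ hE₁ hs
  have hr₂A : r₂ ∈ A := ecflat_x_mem h₁ h₂ h₃ h₄ h₆ hE₂ hs
  have hr₃A : r₃ ∈ A := ecflat_x_mem h₁ h₂ h₃ h₄ h₆ hE₃ hs
  have hcx : (x - r₁) * ((x - r₂) * (x - r₃)) = (y - s) * (y + s + E.a₁ * x + E.a₃) := by
    rw [← hc]; linear_combination -heq
  have hcm : (x - r₁) * ((x - r₂) * (x - r₃)) ∈ A.nonunits := by
    rw [hcx]
    have : y - s ∈ A.nonunits := by
      have := neg_mem hsy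
      rwa [neg_sub] at this
    exact ecflat_mul_mem_nonunits this (add_mem (add_mem (add_mem hy hs) (mul_mem h₁ hx)) h₃)
  rcases ecflat_prime (sub_mem hx hr₁A) (mul_mem (sub_mem hx hr₂A) (sub_mem hx hr₃A)) hcm
    with h' | h'
  · refine ⟨r₁, hr₁A, hE₁, ?_⟩
    have := neg_mem h'
    rwa [neg_sub] at this
  · rcases ecflat_prime (sub_mem hx hr₂A) (sub_mem hx hr₃A) h' with h'' | h''
    · refine ⟨r₂, hr₂A, hE₂, ?_⟩
      have := neg_mem h''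
      rwa [neg_sub] at this
    · refine ⟨r₃, hr₃A, hE₃, ?_⟩
      have := neg_mem h''
      rwa [neg_sub] at this

end Exists

section Fix

variable (σ : K →+* K)

/-- **A simple root in the `y`-direction is fixed.** -/
theorem ecflat_fix_Y (hσ : ∀ a ∈ A, σ a - a ∈ A.nonunits)
    (f₁ : σ E.a₁ = E.a₁) (f₂ : σ E.a₂ = E.a₂) (f₃ : σ E.a₃ = E.a₃) (f₄ : σ E.a₄ = E.a₄)
    (f₆ : σ E.a₆ = E.a₆) (h₁ : E.a₁ ∈ A)
    {x y s y₁ : K} (hy₁ : y₁ ∈ A)
    (hsx : s - x ∈ A.nonunits) (hyy : y₁ - y ∈ A.nonunits) (fs : σ s = s)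
    (hE : E.toAffine.Equation s y₁)
    (hunit : 2 * y + E.a₁ * x + E.a₃ ∉ A.nonunits) : σ y₁ = y₁ := by
  have heq := (Affine.equation_iff _ _).1 hE
  have heq' : σ y₁ ^ 2 + E.a₁ * s * σ y₁ + E.a₃ * σ y₁ = s ^ 3 + E.a₂ * s ^ 2 + E.a₄ * s + E.a₆ := by
    have := congrArg σ heq
    simp only [map_add, map_mul, map_pow, f₁, f₂, f₃, f₄, f₆, fs] at this
    exact this
  have hprod : (σ y₁ - y₁) * (σ y₁ + y₁ + E.a₁ * s + E.a₃) = 0 := by
    linear_combination heq' - heq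
  have hne : σ y₁ + y₁ + E.a₁ * s + E.a₃ ≠ 0 := by
    have e : σ y₁ + y₁ + E.a₁ * s + E.a₃
        = (2 * y + E.a₁ * x + E.a₃) + ((σ y₁ - y₁) + (y₁ - y) * 2 + (s - x) * E.a₁) := by
      ring
    rw [e]
    exact ecflat_unit_add_ne_zero hunit (add_mem (add_mem (hσ y₁ hy₁)
      (ecflat_mul_mem_nonunits hyy (ofNat_mem A 2))) (ecflat_mul_mem_nonunits hsx h₁))
  rcases mul_eq_zero.1 hprod with h | h
  · exact sub_eq_zero.1 h
  · exact absurd h hne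

/-- **A simple root in the `x`-direction is fixed.** -/
theorem ecflat_fix_X (hσ : ∀ a ∈ A, σ a - a ∈ A.nonunits)
    (f₁ : σ E.a₁ = E.a₁) (f₂ : σ E.a₂ = E.a₂) (f₃ : σ E.a₃ = E.a₃) (f₄ : σ E.a₄ = E.a₄)
    (f₆ : σ E.a₆ = E.a₆) (h₁ : E.a₁ ∈ A) (h₂ : E.a₂ ∈ A)
    {x y s x₁ : K} (hx : x ∈ A) (hx₁ : x₁ ∈ A)
    (hsy : s - y ∈ A.nonunits) (hxx : x₁ - x ∈ A.nonunits) (fs : σ s = s)
    (hE : E.toAffine.Equation x₁ s)
    (hunit : 3 * x ^ 2 + 2 * E.a₂ * x + E.a₄ - E.a₁ * y ∉ A.nonunits) : σ x₁ = x₁ := by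
  have heq := (Affine.equation_iff _ _).1 hE
  have heq' : s ^ 2 + E.a₁ * σ x₁ * s + E.a₃ * s
      = σ x₁ ^ 3 + E.a₂ * σ x₁ ^ 2 + E.a₄ * σ x₁ + E.a₆ := by
    have := congrArg σ heq
    simp only [map_add, map_mul, map_pow, f₁, f₂, f₃, f₄, f₆, fs] at this
    exact this
  have hδ := hσ x₁ hx₁
  have hσA : σ x₁ ∈ A := by
    have : σ x₁ = (σ x₁ - x₁) + x₁ := by ring
    rw [this]; exact add_mem (A.nonunits_subset hδ) hx₁
  have hprod : (σ x₁ - x₁) * (σ x₁ ^ 2 + σ x₁ * x₁ + x₁ ^ 2 + E.a₂ * (σ x₁ + x₁) + E.a₄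
      - E.a₁ * s) = 0 := by
    linear_combination heq - heq'
  have hne : σ x₁ ^ 2 + σ x₁ * x₁ + x₁ ^ 2 + E.a₂ * (σ x₁ + x₁) + E.a₄ - E.a₁ * s ≠ 0 := by
    have e : σ x₁ ^ 2 + σ x₁ * x₁ + x₁ ^ 2 + E.a₂ * (σ x₁ + x₁) + E.a₄ - E.a₁ * s
        = (3 * x ^ 2 + 2 * E.a₂ * x + E.a₄ - E.a₁ * y)
          + ((x₁ - x) * (3 * (x₁ + x) + 2 * E.a₂) + (s - y) * (-E.a₁)
            + (σ x₁ - x₁) * (σ x₁ + 2 * x₁ + E.a₂)) := by
      ring
    rw [e]
    refine ecflat_unit_add_ne_zero hunit (add_mem (add_mem ?_ ?_) ?_)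
    · exact ecflat_mul_mem_nonunits hxx (add_mem (mul_mem (ofNat_mem A 3) (add_mem hx₁ hx))
        (mul_mem (ofNat_mem A 2) h₂))
    · exact ecflat_mul_mem_nonunits hsy (neg_mem h₁)
    · exact ecflat_mul_mem_nonunits hδ (add_mem (add_mem hσA (mul_mem (ofNat_mem A 2) hx₁)) h₂)
  rcases mul_eq_zero.1 hprod with h | h
  · exact sub_eq_zero.1 h
  · exact absurd h hne

end Fix

end Fermat.Agent.EC
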