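import Mathlib
import Fermat.Agent.EC.Flat.Lift
import Fermat.Agent.RED.Unram
import Fermat.Agent.W1.Teich
import Fermat.Agent.W1.PlanAlg
import Fermat.Agent.EC.TateLocal

/-!
# E-side flatness, part 7: the kernel chart of an elliptic curve with good reduction

`W : WeierstrassCurve ℤ`, `p` a prime of good reduction, `A` a valuation subring of `ℚ̄` over `p`.
`ecflat_kernelChart` : the kernel of reduction `J1 ⊂ E(ℚ̄)` with the coordinate `z = -x/y` is a
`W1.KernelChart` (with `g = 1`).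
-/

set_option autoImplicit false

namespace Fermat.Agent.EC

open WeierstrassCurve WeierstrassCurve.Affine Fermat.Agent.RED

/-- `ℚ̄` -/
local notation "Qbar" => AlgebraicClosure ℚ
/-- `G_ℚ` -/
local notation "GQ" => (AlgebraicClosure ℚ ≃ₐ[ℚ] AlgebraicClosure ℚ)

section Coeff

variable (W : WeierstrassCurve ℤ) (A : ValuationSubring Qbar)

theorem ecflat_a₁_mem : ((W.map (Int.castRingHom ℚ))⁄Qbar).a₁ ∈ A := by
  rw [baseChange_eq_curveK W A]; exact curveK_a₁_mem A _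

theorem ecflat_a₂_mem : ((W.map (Int.castRingHom ℚ))⁄Qbar).a₂ ∈ A := by
  rw [baseChange_eq_curveK W A]; exact curveK_a₂_mem A _

theorem ecflat_a₃_mem : ((W.map (Int.castRingHom ℚ))⁄Qbar).a₃ ∈ A := by
  rw [baseChange_eq_curveK W A]; exact curveK_a₃_mem A _

theorem ecflat_a₄_mem : ((W.map (Int.castRingHom ℚ))⁄Qbar).a₄ ∈ A := by
  rw [baseChange_eq_curveK W A]; exact curveK_a₄_mem A _

theorem ecflat_a₆_mem : ((W.map (Int.castRingHom ℚ))⁄Qbar).a₆ ∈ A := by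
  rw [baseChange_eq_curveK W A]; exact curveK_a₆_mem A _

theorem ecflat_a₁_fix (σ : GQ) :
    σ ((W.map (Int.castRingHom ℚ))⁄Qbar).a₁ = ((W.map (Int.castRingHom ℚ))⁄Qbar).a₁ :=
  σ.commutes _

theorem ecflat_a₂_fix (σ : GQ) :
    σ ((W.map (Int.castRingHom ℚ))⁄Qbar).a₂ = ((W.map (Int.castRingHom ℚ))⁄Qbar).a₂ :=
  σ.commutes _

theorem ecflat_a₃_fix (σ : GQ) :
    σ ((W.map (Int.castRingHom ℚ))⁄Qbar).a₃ = ((W.map (Int.castRingHom ℚ))⁄Qbar).a₃ :=
  σ.commutes _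

theorem ecflat_a₄_fix (σ : GQ) :
    σ ((W.map (Int.castRingHom ℚ))⁄Qbar).a₄ = ((W.map (Int.castRingHom ℚ))⁄Qbar).a₄ :=
  σ.commutes _

theorem ecflat_a₆_fix (σ : GQ) :
    σ ((W.map (Int.castRingHom ℚ))⁄Qbar).a₆ = ((W.map (Int.castRingHom ℚ))⁄Qbar).a₆ :=
  σ.commutes _

end Coeff

section Unit

variable {K : Type*} [Field K] {A : ValuationSubring K} {W₀ : WeierstrassCurve A}

/-- Good reduction: at an integral point one of the two partial derivatives is a unit. -/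
theorem ecflat_unit_of_good (hΔ : IsUnit W₀.Δ) {x y : K} (hx : x ∈ A) (hy : y ∈ A)
    (h : (curveK A W₀).toAffine.Equation x y) :
    2 * y + (curveK A W₀).a₁ * x + (curveK A W₀).a₃ ∉ A.nonunits ∨
      3 * x ^ 2 + 2 * (curveK A W₀).a₂ * x + (curveK A W₀).a₄ - (curveK A W₀).a₁ * y
        ∉ A.nonunits := by
  have hns := nonsingular_res hΔ (a := ⟨x, hx⟩) (b := ⟨y, hy⟩) h
  rw [Affine.nonsingular_iff'] at hns
  rcases hns.2 with h' | h'
  · right
    intro hm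
    apply h'
    have e : 3 * x ^ 2 + 2 * (curveK A W₀).a₂ * x + (curveK A W₀).a₄ - (curveK A W₀).a₁ * y
        = ((3 * (⟨x, hx⟩ : A) ^ 2 + 2 * W₀.a₂ * ⟨x, hx⟩ + W₀.a₄ - W₀.a₁ * ⟨y, hy⟩ : A) : K) := by
      push_cast; rfl
    rw [e, ValuationSubring.coe_mem_nonunits_iff, ← IsLocalRing.residue_eq_zero_iff] at hm
    have : (curveRes A W₀).a₁ * IsLocalRing.residue A ⟨y, hy⟩
        - (3 * IsLocalRing.residue A ⟨x, hx⟩ ^ 2
          + 2 * (curveRes A W₀).a₂ * IsLocalRing.residue A ⟨x, hx⟩ + (curveRes A W₀).a₄)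
        = -IsLocalRing.residue A
          (3 * (⟨x, hx⟩ : A) ^ 2 + 2 * W₀.a₂ * ⟨x, hx⟩ + W₀.a₄ - W₀.a₁ * ⟨y, hy⟩) := by
      simp only [map_sub, map_add, map_mul, map_pow, map_ofNat]
      have e₂ : (curveRes A W₀).a₂ = IsLocalRing.residue A W₀.a₂ := rfl
      have e₄ : (curveRes A W₀).a₄ = IsLocalRing.residue A W₀.a₄ := rfl
      have e₁ : (curveRes A W₀).a₁ = IsLocalRing.residue A W₀.a₁ := rfl
      rw [e₁, e₂, e₄]
      ring
    rw [this, hm, neg_zero]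
  · left
    intro hm
    apply h'
    have e : 2 * y + (curveK A W₀).a₁ * x + (curveK A W₀).a₃
        = ((2 * (⟨y, hy⟩ : A) + W₀.a₁ * ⟨x, hx⟩ + W₀.a₃ : A) : K) := by
      push_cast; rfl
    rw [e, ValuationSubring.coe_mem_nonunits_iff, ← IsLocalRing.residue_eq_zero_iff] at hm
    have : 2 * IsLocalRing.residue A ⟨y, hy⟩ + (curveRes A W₀).a₁ * IsLocalRing.residue A ⟨x, hx⟩
        + (curveRes A W₀).a₃
        = IsLocalRing.residue A (2 * (⟨y, hy⟩ : A) + W₀.a₁ * ⟨x, hx⟩ + W₀.a₃) := by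
      simp only [map_add, map_mul, map_ofNat]
      rfl
    rw [this, hm]

end Unit

section Main

variable (W : WeierstrassCurve ℤ) {p : ℕ} [Fact p.Prime]
  (A : ValuationSubring Qbar)

/-- `redQ` vanishes exactly on the kernel predicate -/
theorem ecflat_redQ_eq_zero_iff [DecidableEq (IsLocalRing.ResidueField A)]
    [Algebra (ZMod p) (IsLocalRing.ResidueField A)] (hΔ : IsUnit (modelA W A).Δ)
    (P : ((W.map (Int.castRingHom ℚ))⁄Qbar).Point) :
    redQ (ℓ := p) hΔ P = 0 ↔ ecflat_InKer A P := by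
  rcases P with _ | ⟨x, y, h⟩
  · exact ⟨fun _ => trivial, fun _ => map_zero _⟩
  · by_cases hx : x ∈ A
    · obtain ⟨hy, h', e⟩ := redQ_some_of_mem (ℓ := p) hΔ h hx
      rw [e]
      exact ⟨fun h0 => absurd h0 (Affine.Point.some_ne_zero _), fun hk => absurd hx hk⟩
    · rw [redQ_some_of_not_mem (ℓ := p) hΔ h hx]
      exact ⟨fun _ => hx, fun _ => rfl⟩

/-- the kernel of reduction, as a subgroup of `E(ℚ̄)` -/
noncomputable def ecflatJ1 (hA : A.LiesOverPrime p) (hgood : W.IsGoodPrimeFor p) :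
    AddSubgroup ((W.map (Int.castRingHom ℚ))⁄Qbar).Point where
  carrier := {P | ecflat_InKer A P}
  zero_mem' := trivial
  add_mem' := by
    intro P Q hP hQ
    have hp : p.Prime := Fact.out
    let _ : DecidableEq (IsLocalRing.ResidueField A) := Classical.decEq _
    have : CharP (IsLocalRing.ResidueField A) p := charP_residueField A hp hA
    let _ : Algebra (ZMod p) (IsLocalRing.ResidueField A) := ZMod.algebra _ p
    have hΔ : IsUnit (modelA W A).Δ := isUnit_Δ_modelA hp hA hgood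
    have h1 := (ecflat_redQ_eq_zero_iff (p := p) W A hΔ P).2 hP
    have h2 := (ecflat_redQ_eq_zero_iff (p := p) W A hΔ Q).2 hQ
    apply (ecflat_redQ_eq_zero_iff (p := p) W A hΔ (P + Q)).1
    rw [map_add, h1, h2, add_zero]
  neg_mem' := by
    intro P hP
    rcases P with _ | ⟨x, y, h⟩
    · exact hP
    · exact hP

theorem mem_ecflatJ1 (hA : A.LiesOverPrime p) (hgood : W.IsGoodPrimeFor p)
    (P : ((W.map (Int.castRingHom ℚ))⁄Qbar).Point) :
    P ∈ ecflatJ1 W A hA hgood ↔ ecflat_InKer A P := Iff.rfl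

/-- **Lifting**: every point of `E(ℚ̄)` is congruent modulo the kernel of reduction to a point
fixed by the inertia group. -/
theorem ecflat_lift (hA : A.LiesOverPrime p) (hgood : W.IsGoodPrimeFor p)
    (P : ((W.map (Int.castRingHom ℚ))⁄Qbar).Point) :
    ∃ b : ((W.map (Int.castRingHom ℚ))⁄Qbar).Point,
      (∀ σ ∈ A.inertiaSubgroupIn ℚ, σ • b = b) ∧ P - b ∈ ecflatJ1 W A hA hgood := by
  classical
  have hp : p.Prime := Fact.out
  let _ : DecidableEq (IsLocalRing.ResidueField A) := Classical.decEq _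
  have : CharP (IsLocalRing.ResidueField A) p := charP_residueField A hp hA
  let _ : Algebra (ZMod p) (IsLocalRing.ResidueField A) := ZMod.algebra _ p
  have hΔ : IsUnit (modelA W A).Δ := isUnit_Δ_modelA hp hA hgood
  have h₁ := ecflat_a₁_mem W A
  have h₂ := ecflat_a₂_mem W A
  have h₃ := ecflat_a₃_mem W A
  have h₄ := ecflat_a₄_mem W A
  have h₆ := ecflat_a₆_mem W A
  by_cases hK : ecflat_InKer A P
  · refine ⟨0, fun σ _ => rfl, ?_⟩
    rw [sub_zero]; exact hK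
  rcases P with _ | ⟨x, y, h⟩
  · exact absurd trivial hK
  have hx : x ∈ A := by
    by_contra hx
    exact hK hx
  have hy : y ∈ A := ecflat_y_mem h₁ h₂ h₃ h₄ h₆ h.1 hx
  obtain ⟨S, hS⟩ := Fermat.Agent.W1.stmtTeich p hp A hA
  -- the unit condition
  have hunit : 2 * y + ((W.map (Int.castRingHom ℚ))⁄Qbar).a₁ * x
        + ((W.map (Int.castRingHom ℚ))⁄Qbar).a₃ ∉ A.nonunits ∨
      3 * x ^ 2 + 2 * ((W.map (Int.castRingHom ℚ))⁄Qbar).a₂ * x
        + ((W.map (Int.castRingHom ℚ))⁄Qbar).a₄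
        - ((W.map (Int.castRingHom ℚ))⁄Qbar).a₁ * y ∉ A.nonunits := by
    have h2 : (curveK A (modelA W A)).toAffine.Equation x y := (baseChange_eq_curveK W A) ▸ h.1
    have := ecflat_unit_of_good hΔ hx hy h2
    rw [← baseChange_eq_curveK W A] at this
    exact this
  have hΔ0 : W.Δ ≠ 0 := by
    intro h0
    apply hgood
    rw [h0]
    exact dvd_zero _
  have hΔQ : ((W.map (Int.castRingHom ℚ))⁄Qbar).Δ ≠ 0 :=
    tate_Δ_ne_zero _ (tate_map_Δ_ne_zero W hΔ0)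
  -- the point `b` with coordinates `x', y'`
  suffices hb : ∃ x' y' : Qbar, x' ∈ A ∧ y' ∈ A ∧
      ((W.map (Int.castRingHom ℚ))⁄Qbar).Equation x' y' ∧ x' - x ∈ A.nonunits ∧
      y' - y ∈ A.nonunits ∧ ∀ σ ∈ A.inertiaSubgroupIn ℚ, σ x' = x' ∧ σ y' = y' by
    obtain ⟨x', y', hx', hy', hE, hxx, hyy, hfix⟩ := hb
    have hns : ((W.map (Int.castRingHom ℚ))⁄Qbar).Nonsingular x' y' :=
      (Affine.equation_iff_nonsingular_of_Δ_ne_zero hΔQ).1 hE
    refine ⟨Point.some x' y' hns, fun σ hσ => ?_, ?_⟩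
    · exact Fermat.Agent.S05.galois_smul_some_eq_self σ hns (hfix σ hσ).1 (hfix σ hσ).2
    · rw [mem_ecflatJ1]
      apply (ecflat_redQ_eq_zero_iff (p := p) W A hΔ _).1
      rw [map_sub, sub_eq_zero]
      obtain ⟨hy1, hn1, e1⟩ := redQ_some_of_mem (ℓ := p) hΔ h hx
      obtain ⟨hy2, hn2, e2⟩ := redQ_some_of_mem (ℓ := p) hΔ hns hx'
      rw [e1, e2]
      refine some_congr _ _ ?_ ?_
      · rw [residue_eq_iff_sub_mem_nonunits]
        have := neg_mem hxx
        rwa [neg_sub] at this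
      · rw [residue_eq_iff_sub_mem_nonunits]
        have := neg_mem hyy
        rwa [neg_sub] at this
  have hinert : ∀ σ ∈ A.inertiaSubgroupIn ℚ, ∀ a ∈ A,
      (σ : Qbar ≃ₐ[ℚ] Qbar).toRingEquiv.toRingHom a - a ∈ A.nonunits :=
    fun σ hσ a ha => Fermat.Agent.S05.inertia_apply_sub_mem_nonunits hσ ha
  rcases hunit with hu | hu
  · -- lift `x` by a Teichmüller representative and solve for `y`
    obtain ⟨s, hsS, hs⟩ := hS.surj (IsLocalRing.residue A ⟨x, hx⟩)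
    have hsx : (s : Qbar) - x ∈ A.nonunits := by
      have := (residue_eq_iff_sub_mem_nonunits (a := s) (b := ⟨x, hx⟩)).1 hs
      exact this
    obtain ⟨y₁, hy₁, hE, hyy⟩ := ecflat_exists_Y h₁ h₂ h₃ h₄ h₆ h.1 hx s.2 hsx
    refine ⟨s, y₁, s.2, hy₁, hE, hsx, hyy, fun σ hσ => ⟨hS.fixed σ hσ s hsS, ?_⟩⟩
    exact ecflat_fix_Y (σ : Qbar ≃ₐ[ℚ] Qbar).toRingEquiv.toRingHom (hinert σ hσ)
      (ecflat_a₁_fix W σ) (ecflat_a₂_fix W σ) (ecflat_a₃_fix W σ) (ecflat_a₄_fix W σ)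
      (ecflat_a₆_fix W σ) h₁ hy₁ hsx hyy (hS.fixed σ hσ s hsS) hE hu
  · -- lift `y` by a Teichmüller representative and solve for `x`
    obtain ⟨s, hsS, hs⟩ := hS.surj (IsLocalRing.residue A ⟨y, hy⟩)
    have hsy : (s : Qbar) - y ∈ A.nonunits := by
      have := (residue_eq_iff_sub_mem_nonunits (a := s) (b := ⟨y, hy⟩)).1 hs
      exact this
    obtain ⟨x₁, hx₁, hE, hxx⟩ := ecflat_exists_X h₁ h₂ h₃ h₄ h₆ h.1 hx s.2 hsy
    refine ⟨x₁, s, hx₁, s.2, hE, hxx, hsy, fun σ hσ => ⟨?_, hS.fixed σ hσ s hsS⟩⟩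
    exact ecflat_fix_X (σ : Qbar ≃ₐ[ℚ] Qbar).toRingEquiv.toRingHom (hinert σ hσ)
      (ecflat_a₁_fix W σ) (ecflat_a₂_fix W σ) (ecflat_a₃_fix W σ) (ecflat_a₄_fix W σ)
      (ecflat_a₆_fix W σ) h₁ h₂ hx hx₁ hsy hxx (hS.fixed σ hσ s hsS) hE hu

/-- the coordinate `z = -x/y`, as a map to `Fin 1 → ℚ̄` -/
noncomputable def ecflatZ (P : ((W.map (Int.castRingHom ℚ))⁄Qbar).Point) : Fin 1 → Qbar :=
  fun _ => ecflat_z P

/-- **The kernel chart** of `E` at a place of good reduction (`g = 1`, `z = -x/y`). -/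
theorem ecflat_kernelChart (hA : A.LiesOverPrime p) (hgood : W.IsGoodPrimeFor p) :
    Fermat.Agent.W1.KernelChart A ((W.map (Int.castRingHom ℚ))⁄Qbar).Point
      (ecflatJ1 W A hA hgood) 1 (ecflatZ W) where
  decomp_stable := by
    intro σ hσ P hP
    rw [mem_ecflatJ1] at hP ⊢
    rcases P with _ | ⟨x, y, h⟩
    · exact trivial
    · rw [Fermat.Agent.S05.galois_smul_some]
      intro hx
      exact hP ((Fermat.Agent.S05.apply_mem_iff_of_mem_decomposition hσ x).1 hx)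
  mem_nonunits := by
    intro P hP i
    exact ecflat_z_mem_nonunits A (ecflat_a₁_mem W A) (ecflat_a₂_mem W A) (ecflat_a₃_mem W A)
      (ecflat_a₄_mem W A) (ecflat_a₆_mem W A) hP
  injOn := by
    intro P hP Q hQ hz
    exact ecflat_z_injOn A (ecflat_a₁_mem W A) (ecflat_a₂_mem W A) (ecflat_a₃_mem W A)
      (ecflat_a₄_mem W A) (ecflat_a₆_mem W A) hP hQ (congrFun hz 0)
  inertia_equivariant := by
    intro σ _ P _ i
    rcases P with _ | ⟨x, y, h⟩
    · show (0 : Qbar) = σ 0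
      rw [map_zero]
    · rw [Fermat.Agent.S05.galois_smul_some]
      show -(σ x) / σ y = σ (-x / y)
      rw [map_div₀, map_neg]
  add_approx := by
    intro ϖ hϖ _ n
    obtain ⟨F, hF, hadd⟩ := ecflat_add_approx A (ecflat_a₁_mem W A) (ecflat_a₂_mem W A)
      (ecflat_a₃_mem W A) (ecflat_a₄_mem W A) (ecflat_a₆_mem W A) hϖ n
    refine ⟨fun _ => F, fun _ m => hF m, fun P hP Q hQ hzP hzQ i => ?_⟩
    exact hadd P Q hP hQ (hzP 0) (hzQ 0)
  lift := fun x _ => ecflat_lift W A hA hgood x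

end Main

end Fermat.Agent.EC
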