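import Mathlib
import Fermat.Agent.EC.Flat.Chart
import Fermat.Agent.W1.ChartToLocal
import Fermat.Agent.W1.LocalToGlobalFinal
import Fermat.Agent.W1.HopfOfLattice
import Fermat.Agent.W1.RatLocPID
import Fermat.Agent.W1.SubQuot
import Fermat.Agent.Common.FrobProfinite
import Fermat.Prelude.Def_GaloisRep_Flat

/-!
# E-side flatness, final part: `E[p^k]` is finite flat at a prime of good reduction

`W : WeierstrassCurve ℤ`, `p` a prime of good reduction.

* `ecflat_hasFiniteFlatModel` : `E[p^k](ℚ̄)` with its Galois action has a finite flat model over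
  `ℤ_(p)` (a commutative cocommutative Hopf algebra, finite and flat over `ℤ_(p)`, whose
  `ℚ̄`-points are `E[p^k]`, additively and Galois equivariantly);
* `tateRepInt_isFlatAt` : `(tateRepInt W hΔ p).IsFlatAt p` (the prelude's flatness condition).
-/

set_option autoImplicit false

namespace Fermat.Agent.EC

open WeierstrassCurve WeierstrassCurve.Affine Fermat.Agent.W1

/-- `ℚ̄` -/
local notation "Qbar" => AlgebraicClosure ℚ
/-- `G_ℚ` -/
local notation "GQ" => (AlgebraicClosure ℚ ≃ₐ[ℚ] AlgebraicClosure ℚ)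

section Tors

variable (W : WeierstrassCurve ℤ) (hΔ : W.Δ ≠ 0)

include hΔ in
/-- `E[n](ℚ̄)` is finite -/
theorem ecflat_finite_torsionBy {n : ℕ} (hn : n ≠ 0) :
    Finite (Submodule.torsionBy ℤ ((W.map (Int.castRingHom ℚ))⁄Qbar).Point (n : ℤ)) := by
  classical
  have hfin : Finite {P : ((W.map (Int.castRingHom ℚ))⁄Qbar).Point // n • P = 0} :=
    ec_finite_torsion (W := (W.map (Int.castRingHom ℚ))⁄Qbar)
      (tate_Δ_ne_zero _ (tate_map_Δ_ne_zero W hΔ)) tate_two_ne_zero (n := n)
      (tate_cast_ne_zero hn)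
  let f : Submodule.torsionBy ℤ ((W.map (Int.castRingHom ℚ))⁄Qbar).Point (n : ℤ) →
      {P : ((W.map (Int.castRingHom ℚ))⁄Qbar).Point // n • P = 0} :=
    fun x => ⟨x.1, by
      have := x.2
      rw [Submodule.mem_torsionBy_iff, natCast_zsmul] at this
      exact this⟩
  exact Finite.of_injective f (fun x y hxy => Subtype.ext (congrArg Subtype.val hxy))

include hΔ in
/-- the Galois action on `E[n](ℚ̄)` is continuous -/
theorem ecflat_isContAction {n : ℕ} (hn : n ≠ 0) :
    IsContAction (torsAct ((W.map (Int.castRingHom ℚ))⁄Qbar).Point (n : ℤ)) where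
  one := fun P => Subtype.ext (one_smul _ _)
  mul := fun σ τ P => Subtype.ext (mul_smul σ τ _)
  add := fun σ P Q => Subtype.ext (smul_add σ _ _)
  open_stab := by
    intro P
    obtain ⟨L, hL, hfix⟩ := tate_finite_level (W.map (Int.castRingHom ℚ))
      (tate_map_Δ_ne_zero W hΔ) (m := n) hn
    refine ⟨L, hL, fun σ hσ => Subtype.ext ?_⟩
    have hP := P.2
    rw [Submodule.mem_torsionBy_iff, natCast_zsmul] at hP
    exact hfix σ hσ P.1 hP

end Tors

section Model

variable (W : WeierstrassCurve ℤ) (hΔ : W.Δ ≠ 0) (p : ℕ) [hp : Fact p.Prime]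

include hΔ in
/-- **`E[p^k]` is finite flat** at a prime `p` of good reduction. -/
theorem ecflat_hasFiniteFlatModel (hgood : W.IsGoodPrimeFor p) (k : ℕ) :
    HasFiniteFlatModel (GaloisRep.ratLocalizedAt p)
      (Submodule.torsionBy ℤ ((W.map (Int.castRingHom ℚ))⁄Qbar).Point ((p ^ k : ℕ) : ℤ))
      (torsAct ((W.map (Int.castRingHom ℚ))⁄Qbar).Point ((p ^ k : ℕ) : ℤ)) := by
  classical
  obtain ⟨A, hA⟩ := Fermat.Agent.Common.exists_liesOverPrime p hp.out
  have hpos : 0 < p ^ k := pow_pos hp.out.pos k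
  have hne : p ^ k ≠ 0 := hpos.ne'
  have hfin := ecflat_finite_torsionBy W hΔ hne
  have hcont := ecflat_isContAction W hΔ hne
  obtain ⟨Ht, hHt⟩ := chartToLocalStatement p hp.out A hA _ inferInstance inferInstance
    (ecflatJ1 W A hA hgood) 1 (ecflatZ W) (ecflat_kernelChart W A hA hgood) (p ^ k) hpos hfin hcont
  obtain ⟨H, hH⟩ := localToGlobalStatement p hp.out A hA _ inferInstance hfin _ hcont Ht hHt
  have := Fermat.Agent.S28.ratLoc_isFractionRing p
  have := Fermat.Agent.W1.ratLoc_isPrincipalIdealRing p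
  exact hasFiniteFlatModel_of_isHopfLattice hH

/-- **The Tate representation of an elliptic curve is flat at a prime of good reduction.** -/
theorem tateRepInt_isFlatAt (hgood : W.IsGoodPrimeFor p) : (tateRepInt W hΔ p).IsFlatAt p := by
  classical
  rw [sq_isFlatAt_iff]
  refine ⟨?_, fun I hI => ?_⟩
  · exact Finite.of_equiv _ (PadicInt.residueField (p := p)).symm.toEquiv
  · -- `I = (p^k)`
    have hI0 : I ≠ ⊥ := by
      rintro rfl
      have e : ℤ_[p] ≃ (ℤ_[p] ⧸ (⊥ : Ideal ℤ_[p])) :=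
        (RingEquiv.quotientBot ℤ_[p]).symm.toEquiv
      have : Finite ℤ_[p] := Finite.of_equiv _ e.symm
      exact not_finite ℤ_[p]
    obtain ⟨k, hk⟩ := PadicInt.ideal_eq_span_pow_p hI0
    have hne : p ^ k ≠ 0 := pow_ne_zero k hp.out.ne_zero
    have hfin := ecflat_finite_torsionBy W hΔ hne
    have := Fermat.Agent.S28.ratLoc_isFractionRing p
    have := Fermat.Agent.W1.ratLoc_isPrincipalIdealRing p
    have hker : ∀ v : (tateRepInt W hΔ p).V,
        v ∈ I • (⊤ : Submodule ℤ_[p] (tateRepInt W hΔ p).V) ↔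
          tateLevel (W.map (Int.castRingHom ℚ)) (tate_map_Δ_ne_zero W hΔ) p k v = 0 := by
      intro v
      rw [hk]
      exact (tateLevel_eq_zero_iff (W.map (Int.castRingHom ℚ)) (tate_map_Δ_ne_zero W hΔ) p k
        v).symm
    -- the induced map on the quotient
    let ι : ((tateRepInt W hΔ p).V ⧸ (I • (⊤ : Submodule ℤ_[p] (tateRepInt W hΔ p).V))) →+
        Submodule.torsionBy ℤ ((W.map (Int.castRingHom ℚ))⁄Qbar).Point ((p ^ k : ℕ) : ℤ) :=
      QuotientAddGroup.lift
        (I • (⊤ : Submodule ℤ_[p] (tateRepInt W hΔ p).V)).toAddSubgroup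
        (tateLevel (W.map (Int.castRingHom ℚ)) (tate_map_Δ_ne_zero W hΔ) p k)
        (fun v hv => (hker v).1 hv)
    have hι : ∀ v : (tateRepInt W hΔ p).V, ι (Submodule.Quotient.mk v)
        = tateLevel (W.map (Int.castRingHom ℚ)) (tate_map_Δ_ne_zero W hΔ) p k v :=
      fun v => rfl
    refine hasFiniteFlatModel_of_injective (ecflat_hasFiniteFlatModel W hΔ p hgood k) ι ?_ ?_
    · intro x y hxy
      obtain ⟨v, rfl⟩ := Submodule.Quotient.mk_surjective _ x
      obtain ⟨w, rfl⟩ := Submodule.Quotient.mk_surjective _ y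
      rw [hι, hι] at hxy
      rw [Submodule.Quotient.eq, hker]
      have e := (tateLevel (W.map (Int.castRingHom ℚ)) (tate_map_Δ_ne_zero W hΔ) p k).map_sub v w
      exact e.trans (by rw [hxy, sub_self])
    · intro σ x
      obtain ⟨v, rfl⟩ := Submodule.Quotient.mk_surjective _ x
      show ι (Submodule.Quotient.mk ((tateRepInt W hΔ p).ρ σ v)) = _
      rw [hι, hι]
      exact tateLevel_rho (W.map (Int.castRingHom ℚ)) (tate_map_Δ_ne_zero W hΔ) p k σ v

end Model

end Fermat.Agent.EC
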